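import Mathlib
import Fermat.Agent.F1.Defs

section MergeWrap_F1_TransferAux -- from F1/TransferAux.lean

/-!
# F1 / TransferAux (helper96): general facts used by `Transfer.lean`

* `transfer_exists_two_nsmul`: on a short Weierstrass curve with `Δ ≠ 0` over an algebraically closed
  field of characteristic `≠ 2`, every point is twice a point.
* `transfer_exists_generic`: over `L = AlgebraicClosure (RatFunc k)` there is a point with
  transcendental `x`-coordinate.
* `transfer_translate`: the translate of a point with transcendental `x`-coordinate by a point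
  defined over an algebraically closed subfield again has transcendental `x`-coordinate.
-/

set_option autoImplicit false

open Polynomial WeierstrassCurve WeierstrassCurve.Affine

namespace Fermat.Agent.F1

section TwoDiv

variable {k : Type*} [Field k] [IsAlgClosed k] [DecidableEq k]

/-- `2`-divisibility of `E(k)` for a short Weierstrass curve over an algebraically closed field. -/
theorem transfer_exists_two_nsmul (W : Affine k) (h1 : W.a₁ = 0) (h2 : W.a₂ = 0) (h3 : W.a₃ = 0)
    (hΔ : W.Δ ≠ 0) (h2k : (2 : k) ≠ 0) (P : W.Point) : ∃ Q : W.Point, 2 • Q = P := by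
  rcases P with _ | ⟨x₀, y₀, hP⟩
  · exact ⟨0, by rw [smul_zero]; rfl⟩
  -- the quartic `x⁴ - 2 A x² - 8 B x + A² - 4 x₀ (x³ + A x + B)`
  set A := W.a₄ with hA
  set B := W.a₆ with hB
  have hΔ' : -16 * (4 * A ^ 3 + 27 * B ^ 2) ≠ 0 := by
    have : W.Δ = -16 * (4 * A ^ 3 + 27 * B ^ 2) := by
      simp only [WeierstrassCurve.Δ, WeierstrassCurve.b₂, WeierstrassCurve.b₄,
        WeierstrassCurve.b₆, WeierstrassCurve.b₈, h1, h2, h3, hA, hB]
      ring
    rwa [this] at hΔ
  let p : k[X] := X ^ 4 - C (2 * A) * X ^ 2 - C (8 * B) * X + C (A ^ 2)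
    - C (4 * x₀) * (X ^ 3 + C A * X + C B)
  have hpdeg : p.degree = 4 := by
    have : p = X ^ 4 + (- C (4 * x₀) * X ^ 3 - C (2 * A) * X ^ 2 - C (8 * B + 4 * x₀ * A) * X
        + C (A ^ 2 - 4 * x₀ * B)) := by
      simp only [p, C_add, C_sub, C_mul]
      ring
    rw [this]
    have hlt : (- C (4 * x₀) * X ^ 3 - C (2 * A) * X ^ 2 - C (8 * B + 4 * x₀ * A) * X
        + C (A ^ 2 - 4 * x₀ * B) : k[X]).degree < 4 := by
      have : (- C (4 * x₀) * X ^ 3 - C (2 * A) * X ^ 2 - C (8 * B + 4 * x₀ * A) * X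
        + C (A ^ 2 - 4 * x₀ * B) : k[X]) = C (-(4 * x₀)) * X ^ 3 + C (-(2 * A)) * X ^ 2
          + C (-(8 * B + 4 * x₀ * A)) * X + C (A ^ 2 - 4 * x₀ * B) := by
        simp only [C_neg]; ring
      rw [this]
      exact (degree_cubic_le).trans_lt (by norm_num)
    rw [degree_add_eq_left_of_degree_lt (by rwa [degree_X_pow])]
    exact degree_X_pow 4
  obtain ⟨x, hx⟩ := IsAlgClosed.exists_root p (by rw [hpdeg]; norm_num)
  have hx' : x ^ 4 - 2 * A * x ^ 2 - 8 * B * x + A ^ 2 - 4 * x₀ * (x ^ 3 + A * x + B) = 0 := by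
    simpa [p] using hx
  obtain ⟨y, hy⟩ := IsAlgClosed.exists_pow_nat_eq (x ^ 3 + A * x + B) (n := 2) (by norm_num)
  -- `f x ≠ 0`
  have hfx : x ^ 3 + A * x + B ≠ 0 := by
    intro h0
    have h4 : (3 * x ^ 2 + A) ^ 2 = 0 := by linear_combination hx' + (8 * x + 4 * x₀) * h0
    have h5 : 3 * x ^ 2 + A = 0 := by simpa using h4
    apply hΔ'
    have hAeq : A = -3 * x ^ 2 := by linear_combination h5
    have hBeq : B = 2 * x ^ 3 := by
      have := h0
      rw [hAeq] at this
      linear_combination this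
    rw [hAeq, hBeq]
    ring
  have hy0 : y ≠ 0 := by
    rintro rfl
    apply hfx
    rw [← hy]; ring
  have hEq : W.Equation x y := by
    rw [Affine.equation_iff, h1, h2, h3]
    linear_combination hy
  have hNs : W.Nonsingular x y := (W.equation_iff_nonsingular_of_Δ_ne_zero hΔ).mp hEq
  have hneg : W.negY x y = -y := by simp [Affine.negY, h1, h3]
  have hyne : y ≠ W.negY x y := by
    rw [hneg]
    intro h
    apply hy0
    have : (2 : k) * y = 0 := by linear_combination h
    rcases mul_eq_zero.mp this with h' | h'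
    · exact absurd h' h2k
    · exact h'
  have h2y : (2 : k) * y ≠ 0 := mul_ne_zero h2k hy0
  -- x-coordinate of `2 • Q`
  have hdbl : (2 : ℕ) • (Point.some x y hNs) = Point.some _ _
      (Affine.nonsingular_add hNs hNs (fun hh => hyne hh.2)) := by
    rw [two_nsmul, Point.add_self_of_Y_ne hyne]
  have hslope : W.slope x x y y = (3 * x ^ 2 + A) / (2 * y) := by
    rw [Affine.slope_of_Y_ne rfl hyne, hneg, h1, h2]
    congr 1
    · ring
    · ring
  have hX : W.addX x x (W.slope x x y y) = x₀ := by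
    rw [hslope, Affine.addX, h1, h2]
    field_simp
    have hy2 : y ^ 2 = x ^ 3 + A * x + B := hy
    linear_combination hx' + (-(8 * x) - 4 * x₀) * hy2
  -- conclude `2 • Q = ± P`
  have key := (Point.X_eq_iff (W := W) (h₁ := Affine.nonsingular_add hNs hNs
    (fun hh => hyne hh.2)) (h₂ := hP)).mp hX
  rcases key with h | h
  · exact ⟨Point.some x y hNs, by rw [hdbl, h]⟩
  · refine ⟨-Point.some x y hNs, ?_⟩
    rw [smul_neg, hdbl, h, neg_neg]

end TwoDiv

end Fermat.Agent.F1

namespace Fermat.Agent.F1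

section Generic

variable {F₀ : Type*} [Field F₀] (E : WeierstrassCurve F₀)

/-- Over `AlgebraicClosure (RatFunc k)` there is a point with transcendental `x`-coordinate. -/
theorem transfer_exists_generic (hΔ : E.Δ ≠ 0) (k : Type*) [Field k] [Algebra F₀ k] :
    ∃ ξ η : AlgebraicClosure (RatFunc k),
      (E⁄(AlgebraicClosure (RatFunc k))).Nonsingular ξ η ∧ Transcendental k ξ := by
  set L := AlgebraicClosure (RatFunc k) with hL
  let ξ : L := algebraMap (RatFunc k) L RatFunc.X
  have hξ : Transcendental k ξ := by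
    have h0 : Transcendental k (RatFunc.X : RatFunc k) := RatFunc.transcendental_X
    intro halg
    apply h0
    exact (isAlgebraic_algebraMap_iff (FaithfulSMul.algebraMap_injective (RatFunc k) L)).mp halg
  set W := (E⁄L) with hW
  let p : L[X] := X ^ 2 + C (W.a₁ * ξ + W.a₃) * X
    - C (ξ ^ 3 + W.a₂ * ξ ^ 2 + W.a₄ * ξ + W.a₆)
  have hpdeg : p.degree = 2 := by
    have : p = C 1 * X ^ 2 + C (W.a₁ * ξ + W.a₃) * X
        + C (-(ξ ^ 3 + W.a₂ * ξ ^ 2 + W.a₄ * ξ + W.a₆)) := by
      simp only [p, C_neg, C_1]; ring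
    rw [this]
    exact degree_quadratic one_ne_zero
  obtain ⟨η, hη⟩ := IsAlgClosed.exists_root p (by rw [hpdeg]; norm_num)
  have hη' : η ^ 2 + (W.a₁ * ξ + W.a₃) * η - (ξ ^ 3 + W.a₂ * ξ ^ 2 + W.a₄ * ξ + W.a₆) = 0 := by
    simpa [p] using hη
  have hEq : W.Equation ξ η := by
    rw [Affine.equation_iff]
    linear_combination hη'
  have hΔL : W.Δ ≠ 0 := by
    have : W.Δ = algebraMap F₀ L E.Δ := by
      rw [hW]
      exact WeierstrassCurve.map_Δ E (algebraMap F₀ L)
    rw [this]
    exact (map_ne_zero_iff _ (FaithfulSMul.algebraMap_injective F₀ L)).mpr hΔ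
  exact ⟨ξ, η, (W.equation_iff_nonsingular_of_Δ_ne_zero hΔL).mp hEq, hξ⟩

end Generic

end Fermat.Agent.F1

namespace Fermat.Agent.F1

section Translate

/-- over an algebraically closed field, algebraic elements of an extension lie in the base -/
lemma transfer_mem_range_of_isAlgebraic {k L : Type*} [Field k] [Field L] [Algebra k L]
    [IsAlgClosed k] {x : L} (hx : IsAlgebraic k x) : x ∈ (algebraMap k L).range :=
  minpoly.mem_range_of_degree_eq_one k x
    (IsAlgClosed.degree_eq_one_of_irreducible k (minpoly.irreducible hx.isIntegral))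

variable {F₀ : Type*} [Field F₀] (E : WeierstrassCurve F₀)
  {k L : Type*} [Field k] [Field L] [Algebra F₀ k] [Algebra F₀ L] [Algebra k L]
  [IsScalarTower F₀ k L] [DecidableEq k] [DecidableEq L]

/-- an affine point of `E(L)` in the image of `E(k)` has `x`-coordinate in `k` -/
lemma transfer_x_mem_range {ξ η : L} {hns : (E⁄L).Nonsingular ξ η} {T : (E⁄k).Point}
    (h : Point.map (W' := E) (IsScalarTower.toAlgHom F₀ k L) T = Point.some ξ η hns) :
    ξ ∈ (algebraMap k L).range := by
  rcases T with _ | ⟨a, b, hab⟩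
  · exact absurd h (by intro h'; cases h')
  · rw [Point.map_some] at h
    injection h with h1 h2
    exact ⟨a, h1⟩

/-- The translate of a point with transcendental `x`-coordinate by a point defined over the
algebraically closed field `k` is again affine with transcendental `x`-coordinate. -/
theorem transfer_translate [IsAlgClosed k] {ξ η : L}
    (hns : (E⁄L).Nonsingular ξ η) (hξ : Transcendental k ξ) (R : (E⁄k).Point) :
    ∃ (ξ' η' : L) (hns' : (E⁄L).Nonsingular ξ' η'), Transcendental k ξ' ∧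
      Point.some ξ η hns + Point.map (W' := E) (IsScalarTower.toAlgHom F₀ k L) R
        = Point.some ξ' η' hns' := by
  set ι := IsScalarTower.toAlgHom F₀ k L with hι
  have hιapp : ∀ x : k, ι x = algebraMap k L x := fun x => rfl
  have hnot : ∀ T : (E⁄k).Point, Point.map (W' := E) ι T ≠ Point.some ξ η hns := by
    intro T hT
    obtain ⟨a, ha⟩ := transfer_x_mem_range E hT
    exact hξ (ha ▸ isAlgebraic_algebraMap a)
  rcases hQ : Point.some ξ η hns + Point.map (W' := E) ι R with _ | ⟨ξ', η', hns'⟩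
  · exfalso
    apply hnot (-R)
    rw [map_neg]
    exact (eq_neg_of_add_eq_zero_left hQ).symm
  · refine ⟨ξ', η', hns', ?_, rfl⟩
    intro halg
    obtain ⟨a, ha⟩ := transfer_mem_range_of_isAlgebraic halg
    -- coefficients of `E⁄L` come from `E⁄k`
    have c1 : (E⁄L).a₁ = algebraMap k L (E⁄k).a₁ := by
      simp [WeierstrassCurve.Affine.baseChange, ← IsScalarTower.algebraMap_apply]
    have c2 : (E⁄L).a₂ = algebraMap k L (E⁄k).a₂ := by
      simp [WeierstrassCurve.Affine.baseChange, ← IsScalarTower.algebraMap_apply]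
    have c3 : (E⁄L).a₃ = algebraMap k L (E⁄k).a₃ := by
      simp [WeierstrassCurve.Affine.baseChange, ← IsScalarTower.algebraMap_apply]
    have c4 : (E⁄L).a₄ = algebraMap k L (E⁄k).a₄ := by
      simp [WeierstrassCurve.Affine.baseChange, ← IsScalarTower.algebraMap_apply]
    have c6 : (E⁄L).a₆ = algebraMap k L (E⁄k).a₆ := by
      simp [WeierstrassCurve.Affine.baseChange, ← IsScalarTower.algebraMap_apply]
    have hEq := (Affine.equation_iff _ _).mp hns'.1
    rw [c1, c2, c3, c4, c6, ← ha] at hEq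
    have hη'alg : IsAlgebraic k η' := by
      refine ⟨X ^ 2 + C ((E⁄k).a₁ * a + (E⁄k).a₃) * X
        - C (a ^ 3 + (E⁄k).a₂ * a ^ 2 + (E⁄k).a₄ * a + (E⁄k).a₆), ?_, ?_⟩
      · intro h0
        have hq : (X ^ 2 + C ((E⁄k).a₁ * a + (E⁄k).a₃) * X
            - C (a ^ 3 + (E⁄k).a₂ * a ^ 2 + (E⁄k).a₄ * a + (E⁄k).a₆) : k[X])
            = C 1 * X ^ 2 + C ((E⁄k).a₁ * a + (E⁄k).a₃) * X
              + C (-(a ^ 3 + (E⁄k).a₂ * a ^ 2 + (E⁄k).a₄ * a + (E⁄k).a₆)) := by
          simp only [C_neg, C_1]; ring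
        have hd := degree_quadratic (a := (1 : k)) (b := (E⁄k).a₁ * a + (E⁄k).a₃)
          (c := -(a ^ 3 + (E⁄k).a₂ * a ^ 2 + (E⁄k).a₄ * a + (E⁄k).a₆)) one_ne_zero
        rw [← hq, h0, degree_zero] at hd
        exact absurd hd (by decide)
      · simp only [map_sub, map_add, map_mul, map_pow, aeval_X, aeval_C]
        linear_combination hEq
    obtain ⟨b, hb⟩ := transfer_mem_range_of_isAlgebraic hη'alg
    have hab : (E⁄k).Nonsingular a b := by
      have := hns'
      rw [← ha, ← hb, ← hιapp, ← hιapp] at this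
      exact (WeierstrassCurve.Affine.baseChange_nonsingular E ι.injective a b).mp this
    have hmap : Point.map (W' := E) ι (Point.some a b hab) = Point.some ξ' η' hns' := by
      rw [Point.map_some]
      congr 1
    apply hnot (Point.some a b hab - R)
    rw [map_sub, hmap, ← hQ]
    abel

end Translate

end Fermat.Agent.F1
end MergeWrap_F1_TransferAux

section MergeWrap_F1_Transfer -- from F1/Transfer.lean

/-!
# F1 / Transfer: from the generic identity to every point of `E(k)` (owner: helper96)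

`charPt a Q = φ(φ Q) - a • φ Q + ℓ • Q`.  If `2 • charPt a P = 0` for every point `P = (ξ, η)` with
transcendental `ξ` in every field `L ⊇ k`, then `charPt a = 0` on `E(k)` (`k` algebraically closed):
take `L = AlgebraicClosure (RatFunc k)`, translate a generic point by `R ∈ E(k)`, and use that `E(k)` is
`2`-divisible.
-/

set_option autoImplicit false

open Polynomial WeierstrassCurve WeierstrassCurve.Affine

namespace Fermat.Agent.F1

open Fermat.Agent.S52 (shortW frobPt)

/-- `φ² - a φ + ℓ` on points. -/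
noncomputable def charPt {ℓ : ℕ} [Fact ℓ.Prime] (E : WeierstrassCurve (ZMod ℓ)) (a : ℤ)
    (L : Type*) [Field L] [Algebra (ZMod ℓ) L] [DecidableEq L] (Q : (E⁄L).Point) : (E⁄L).Point :=
  frobPt E L (frobPt E L Q) - a • frobPt E L Q + (ℓ : ℤ) • Q

/-- the generic identity, as a hypothesis -/
def GenericIdentity {ℓ : ℕ} [Fact ℓ.Prime] (A B : ZMod ℓ) (a : ℤ)
    (k : Type) [Field k] [Algebra (ZMod ℓ) k] : Prop :=
  ∀ (L : Type) [Field L] [Algebra (ZMod ℓ) L] [Algebra k L] [IsScalarTower (ZMod ℓ) k L]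
    [DecidableEq L] (ξ η : L) (hns : ((shortW A B)⁄L).Nonsingular ξ η),
    Transcendental k ξ → 2 • charPt (shortW A B) a L (Point.some ξ η hns) = 0

section Aux

variable {ℓ : ℕ} [Fact ℓ.Prime] (E : WeierstrassCurve (ZMod ℓ)) (a : ℤ)

lemma transfer_charPt_add (L : Type*) [Field L] [Algebra (ZMod ℓ) L] [DecidableEq L]
    (P Q : (E⁄L).Point) : charPt E a L (P + Q) = charPt E a L P + charPt E a L Q := by
  simp only [charPt, map_add, smul_add]
  abel

lemma transfer_charPt_two_nsmul (L : Type*) [Field L] [Algebra (ZMod ℓ) L] [DecidableEq L]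
    (P : (E⁄L).Point) : charPt E a L (2 • P) = 2 • charPt E a L P := by
  rw [two_nsmul, two_nsmul, transfer_charPt_add]

/-- Frobenius on points commutes with `Point.map`. -/
lemma transfer_frobPt_map {M N : Type*} [Field M] [Field N]
    [Algebra (ZMod ℓ) M] [Algebra (ZMod ℓ) N] [DecidableEq M] [DecidableEq N]
    (ι : M →ₐ[ZMod ℓ] N) (P : (E⁄M).Point) :
    frobPt E N (Affine.Point.map (W' := E) ι P) = Affine.Point.map (W' := E) ι (frobPt E M P) := by
  unfold frobPt
  rw [Affine.Point.map_map, Affine.Point.map_map]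
  have h : (FiniteField.frobeniusAlgHom (ZMod ℓ) N).comp ι
      = ι.comp (FiniteField.frobeniusAlgHom (ZMod ℓ) M) := by
    ext x
    simp [FiniteField.coe_frobeniusAlgHom]
  rw [h]

lemma transfer_charPt_map {M N : Type*} [Field M] [Field N]
    [Algebra (ZMod ℓ) M] [Algebra (ZMod ℓ) N] [DecidableEq M] [DecidableEq N]
    (ι : M →ₐ[ZMod ℓ] N) (P : (E⁄M).Point) :
    charPt E a N (Affine.Point.map (W' := E) ι P)
      = Affine.Point.map (W' := E) ι (charPt E a M P) := by
  simp only [charPt, transfer_frobPt_map, map_add, map_sub, map_zsmul]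

end Aux

theorem transfer {ℓ : ℕ} [Fact ℓ.Prime] (hℓ : 5 ≤ ℓ) (A B : ZMod ℓ) (hΔ : (shortW A B).Δ ≠ 0)
    (a : ℤ) (k : Type) [Field k] [Algebra (ZMod ℓ) k] [IsAlgClosed k] [DecidableEq k]
    (hgen : GenericIdentity A B a k) (P : ((shortW A B)⁄k).Point) :
    charPt (shortW A B) a k P = 0 := by
  classical
  -- Step 1: `2 • charPt R = 0` for every `R ∈ E(k)` (translation of a generic point)
  have h2 : ∀ R : ((shortW A B)⁄k).Point, 2 • charPt (shortW A B) a k R = 0 := by
    intro R
    obtain ⟨ξ, η, hns, hξ⟩ := transfer_exists_generic (shortW A B) hΔ k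
    obtain ⟨ξ', η', hns', hξ', hsum⟩ := transfer_translate (shortW A B) hns hξ R
    have e1 := hgen (AlgebraicClosure (RatFunc k)) ξ η hns hξ
    have e2 := hgen (AlgebraicClosure (RatFunc k)) ξ' η' hns' hξ'
    rw [← hsum, transfer_charPt_add, smul_add, e1, zero_add, transfer_charPt_map, ← map_nsmul]
      at e2
    exact Affine.Point.map_injective _ (e2.trans (map_zero _).symm)
  -- Step 2: `E(k)` is `2`-divisible
  have h2k : (2 : k) ≠ 0 := by
    have h2' : (2 : ZMod ℓ) ≠ 0 := by
      intro h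
      have : ((2 : ℕ) : ZMod ℓ) = 0 := by exact_mod_cast h
      rw [ZMod.natCast_eq_zero_iff] at this
      have := Nat.le_of_dvd (by norm_num) this
      omega
    have : (2 : k) = algebraMap (ZMod ℓ) k 2 := (map_ofNat (algebraMap (ZMod ℓ) k) 2).symm
    rw [this]
    exact (map_ne_zero_iff _ (FaithfulSMul.algebraMap_injective (ZMod ℓ) k)).mpr h2'
  have hΔk : ((shortW A B)⁄k).Δ ≠ 0 := by
    have : ((shortW A B)⁄k).Δ = algebraMap (ZMod ℓ) k (shortW A B).Δ :=
      WeierstrassCurve.map_Δ (shortW A B) (algebraMap (ZMod ℓ) k)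
    rw [this]
    exact (map_ne_zero_iff _ (FaithfulSMul.algebraMap_injective (ZMod ℓ) k)).mpr hΔ
  obtain ⟨Q, hQ⟩ := transfer_exists_two_nsmul ((shortW A B)⁄k)
    (by simp [shortW, WeierstrassCurve.Affine.baseChange])
    (by simp [shortW, WeierstrassCurve.Affine.baseChange])
    (by simp [shortW, WeierstrassCurve.Affine.baseChange]) hΔk h2k P
  rw [← hQ, transfer_charPt_two_nsmul]
  exact h2 Q

end Fermat.Agent.F1
end MergeWrap_F1_Transfer
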