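import Fermat.Agent.MU.F1.Ht
import Fermat.Agent.F1.Defs

section MergeWrap_F1_OddRat -- from F1/OddRat.lean

/-!
# F1 / OddRat: the subgroup of odd-rational points (owner: helper4; proofs: helper10)

`E = shortW A B` over `ZMod ℓ`, `L` a field over `ZMod ℓ` and over `k`, `(ξ, η)` a point of `E(L)`.
A point of `E(L)` is *odd-rational* if it is `O` or `(x, η s)` with `x, s ∈ k(ξ)`.
-/

set_option autoImplicit false
set_option linter.unusedSectionVars false

open Polynomial WeierstrassCurve WeierstrassCurve.Affine IntermediateField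

namespace Fermat.Agent.F1

open Fermat.Agent.S52 (shortW frobPt)

variable {ℓ : ℕ} [Fact ℓ.Prime] (A B : ZMod ℓ)
variable (k : Type*) [Field k] [Algebra (ZMod ℓ) k]
variable {L : Type*} [Field L] [Algebra (ZMod ℓ) L] [Algebra k L] [IsScalarTower (ZMod ℓ) k L]
variable (ξ η : L)

/-- odd-rationality of a point relative to `(ξ, η)`. -/
def IsOddRat : ((shortW A B)⁄L).Point → Prop
  | .zero => True
  | .some x y _ => x ∈ k⟮ξ⟯ ∧ ∃ s ∈ k⟮ξ⟯, y = η * s

section aux

variable {A B}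

lemma oddRat_a₁ : ((shortW A B)⁄L).a₁ = 0 := by
  simp [shortW, WeierstrassCurve.baseChange]

lemma oddRat_a₂ : ((shortW A B)⁄L).a₂ = 0 := by
  simp [shortW, WeierstrassCurve.baseChange]

lemma oddRat_a₃ : ((shortW A B)⁄L).a₃ = 0 := by
  simp [shortW, WeierstrassCurve.baseChange]

lemma oddRat_a₄ : ((shortW A B)⁄L).a₄ = algebraMap (ZMod ℓ) L A := by
  simp [shortW, WeierstrassCurve.baseChange]

lemma oddRat_a₆ : ((shortW A B)⁄L).a₆ = algebraMap (ZMod ℓ) L B := by
  simp [shortW, WeierstrassCurve.baseChange]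

lemma oddRat_negY (x y : L) : ((shortW A B)⁄L).negY x y = -y := by
  rw [Affine.negY, oddRat_a₁, oddRat_a₃]
  ring

lemma oddRat_equation {x y : L} (h : ((shortW A B)⁄L).Equation x y) :
    y ^ 2 = x ^ 3 + algebraMap (ZMod ℓ) L A * x + algebraMap (ZMod ℓ) L B := by
  have := (Affine.equation_iff x y).mp h
  rw [oddRat_a₁, oddRat_a₂, oddRat_a₃, oddRat_a₄, oddRat_a₆] at this
  linear_combination this

variable {ξ}

lemma oddRat_coeff_mem (c : ZMod ℓ) : algebraMap (ZMod ℓ) L c ∈ k⟮ξ⟯ := by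
  rw [IsScalarTower.algebraMap_apply (ZMod ℓ) k L]
  exact IntermediateField.algebraMap_mem _ _

variable {η}

lemma oddRat_sq_mem (hns : ((shortW A B)⁄L).Nonsingular ξ η) : η ^ 2 ∈ k⟮ξ⟯ := by
  rw [oddRat_equation hns.1]
  have hξ : ξ ∈ k⟮ξ⟯ := mem_adjoin_simple_self k ξ
  exact add_mem (add_mem (pow_mem hξ 3) (mul_mem (oddRat_coeff_mem k A) hξ))
    (oddRat_coeff_mem k B)

end aux

variable [DecidableEq L]

variable {A B ξ η}

/-- the slope of the chord/tangent through two odd-rational points is `η σ` with `σ ∈ k(ξ)`. -/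
lemma oddRat_slope (hns : ((shortW A B)⁄L).Nonsingular ξ η) {x₁ x₂ s₁ s₂ : L}
    (hx₁ : x₁ ∈ k⟮ξ⟯) (hx₂ : x₂ ∈ k⟮ξ⟯) (hs₁ : s₁ ∈ k⟮ξ⟯) (hs₂ : s₂ ∈ k⟮ξ⟯)
    (hxy : ¬(x₁ = x₂ ∧ η * s₁ = ((shortW A B)⁄L).negY x₂ (η * s₂))) :
    ∃ σ ∈ k⟮ξ⟯, ((shortW A B)⁄L).slope x₁ x₂ (η * s₁) (η * s₂) = η * σ := by
  by_cases hx : x₁ = x₂
  · have hy : η * s₁ ≠ ((shortW A B)⁄L).negY x₂ (η * s₂) := fun h => hxy ⟨hx, h⟩
    rw [Affine.slope_of_Y_ne hx hy, oddRat_negY, oddRat_a₁, oddRat_a₂, oddRat_a₄]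
    by_cases hden : η * s₁ - -(η * s₁) = 0
    · refine ⟨0, zero_mem _, ?_⟩
      rw [hden, div_zero, mul_zero]
    · have hη : η ≠ 0 := by
        rintro rfl
        simp at hden
      have hss : s₁ + s₁ ≠ 0 := by
        intro h0
        apply hden
        have : η * s₁ - -(η * s₁) = η * (s₁ + s₁) := by ring
        rw [this, h0, mul_zero]
      have hη2 : η ^ 2 ≠ 0 := pow_ne_zero 2 hη
      refine ⟨(3 * x₁ ^ 2 + algebraMap (ZMod ℓ) L A) / (η ^ 2 * (s₁ + s₁)), ?_, ?_⟩
      · refine div_mem (add_mem (mul_mem ?_ (pow_mem hx₁ 2)) (oddRat_coeff_mem k A))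
          (mul_mem (oddRat_sq_mem k hns) (add_mem hs₁ hs₁))
        exact ofNat_mem _ 3
      · field_simp
        ring
  · rw [Affine.slope_of_X_ne hx]
    refine ⟨(s₁ - s₂) / (x₁ - x₂), div_mem (sub_mem hs₁ hs₂) (sub_mem hx₁ hx₂), ?_⟩
    have : x₁ - x₂ ≠ 0 := sub_ne_zero.mpr hx
    field_simp

lemma isOddRat_zero : IsOddRat A B k ξ η (0 : ((shortW A B)⁄L).Point) := trivial

lemma isOddRat_some {x y : L} (h : ((shortW A B)⁄L).Nonsingular x y) :
    IsOddRat A B k ξ η (Point.some x y h) ↔ x ∈ k⟮ξ⟯ ∧ ∃ s ∈ k⟮ξ⟯, y = η * s := Iff.rfl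

lemma isOddRat_neg {Q : ((shortW A B)⁄L).Point} (hQ : IsOddRat A B k ξ η Q) :
    IsOddRat A B k ξ η (-Q) := by
  rcases Q with _ | ⟨x, y, h⟩
  · exact hQ
  · obtain ⟨hx, s, hs, rfl⟩ := hQ
    rw [Point.neg_some, isOddRat_some]
    refine ⟨hx, -s, neg_mem hs, ?_⟩
    rw [oddRat_negY]
    ring

lemma isOddRat_add (hns : ((shortW A B)⁄L).Nonsingular ξ η) {P Q : ((shortW A B)⁄L).Point}
    (hP : IsOddRat A B k ξ η P) (hQ : IsOddRat A B k ξ η Q) :
    IsOddRat A B k ξ η (P + Q) := by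
  rcases P with _ | ⟨x₁, y₁, h₁⟩
  · rw [← Point.zero_def, zero_add]
    exact hQ
  rcases Q with _ | ⟨x₂, y₂, h₂⟩
  · rw [← Point.zero_def, add_zero]
    exact hP
  obtain ⟨hx₁, s₁, hs₁, rfl⟩ := hP
  obtain ⟨hx₂, s₂, hs₂, rfl⟩ := hQ
  by_cases hxy : x₁ = x₂ ∧ η * s₁ = ((shortW A B)⁄L).negY x₂ (η * s₂)
  · rw [Point.add_of_Y_eq hxy.1 hxy.2]
    exact isOddRat_zero k
  · rw [Point.add_some hxy, isOddRat_some]
    obtain ⟨σ, hσ, hsl⟩ := oddRat_slope k hns hx₁ hx₂ hs₁ hs₂ hxy
    have hX : ((shortW A B)⁄L).addX x₁ x₂ (((shortW A B)⁄L).slope x₁ x₂ (η * s₁) (η * s₂))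
        = η ^ 2 * σ ^ 2 - x₁ - x₂ := by
      rw [hsl, Affine.addX, oddRat_a₁, oddRat_a₂]
      ring
    have hXmem : η ^ 2 * σ ^ 2 - x₁ - x₂ ∈ k⟮ξ⟯ :=
      sub_mem (sub_mem (mul_mem (oddRat_sq_mem k hns) (pow_mem hσ 2)) hx₁) hx₂
    refine ⟨by rw [hX]; exact hXmem, -(σ * (η ^ 2 * σ ^ 2 - x₁ - x₂ - x₁) + s₁), ?_, ?_⟩
    · exact neg_mem (add_mem (mul_mem hσ (sub_mem hXmem hx₁)) hs₁)
    · rw [Affine.addY, Affine.negAddY, oddRat_negY, hX, hsl]
      ring


/-- the subgroup of odd-rational points. -/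
def oddRat (hns : ((shortW A B)⁄L).Nonsingular ξ η) :
    AddSubgroup ((shortW A B)⁄L).Point where
  carrier := {Q | IsOddRat A B k ξ η Q}
  zero_mem' := trivial
  add_mem' := fun hP hQ => isOddRat_add k hns hP hQ
  neg_mem' := fun hQ => isOddRat_neg k hQ

variable (hns : ((shortW A B)⁄L).Nonsingular ξ η)

lemma mem_oddRat_iff {Q : ((shortW A B)⁄L).Point} :
    Q ∈ oddRat k hns ↔ IsOddRat A B k ξ η Q := Iff.rfl

theorem gen_mem_oddRat : Point.some ξ η hns ∈ oddRat k hns :=
  ⟨mem_adjoin_simple_self k ξ, 1, one_mem _, (mul_one η).symm⟩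

omit [IsScalarTower (ZMod ℓ) k L] hns in
lemma oddRat_frobPt_some {x y : L} (h : ((shortW A B)⁄L).Nonsingular x y) :
    ∃ h', frobPt (shortW A B) L (Point.some x y h) = Point.some (x ^ ℓ) (y ^ ℓ) h' := by
  have e : frobPt (shortW A B) L (Point.some x y h)
      = Point.some (FiniteField.frobeniusAlgHom (ZMod ℓ) L x)
          (FiniteField.frobeniusAlgHom (ZMod ℓ) L y)
          ((WeierstrassCurve.Affine.baseChange_nonsingular (shortW A B)
            (FiniteField.frobeniusAlgHom (ZMod ℓ) L).injective ..).mpr h) := rfl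
  have hx : FiniteField.frobeniusAlgHom (ZMod ℓ) L x = x ^ ℓ := by
    rw [FiniteField.coe_frobeniusAlgHom, ZMod.card]
  have hy : FiniteField.frobeniusAlgHom (ZMod ℓ) L y = y ^ ℓ := by
    rw [FiniteField.coe_frobeniusAlgHom, ZMod.card]
  have key : ∀ (u v : L) (hu : u = x ^ ℓ) (hv : v = y ^ ℓ)
      (huv : ((shortW A B)⁄L).Nonsingular u v),
      ∃ h', Point.some u v huv = Point.some (x ^ ℓ) (y ^ ℓ) h' := by
    rintro u v rfl rfl huv
    exact ⟨huv, rfl⟩
  rw [e]
  exact key _ _ hx hy _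

/-- NOTE (helper10): the hypothesis `5 ≤ ℓ` (in fact `ℓ` odd) is needed: `η ^ ℓ = η (η²)^((ℓ-1)/2)`. -/
theorem frob_mem_oddRat (hℓ : 5 ≤ ℓ) {Q : ((shortW A B)⁄L).Point} (hQ : Q ∈ oddRat k hns) :
    frobPt (shortW A B) L Q ∈ oddRat k hns := by
  rcases Q with _ | ⟨x, y, h⟩
  · rw [← Point.zero_def, map_zero]
    exact (oddRat k hns).zero_mem
  · obtain ⟨hx, s, hs, rfl⟩ := hQ
    obtain ⟨h', e⟩ := oddRat_frobPt_some (A := A) (B := B) h
    rw [e, mem_oddRat_iff, isOddRat_some]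
    have hodd : Odd ℓ := by
      rcases (Fact.out : ℓ.Prime).eq_two_or_odd' with h2 | h2
      · omega
      · exact h2
    obtain ⟨m, hm⟩ := hodd
    refine ⟨pow_mem hx ℓ, (η ^ 2) ^ m * s ^ ℓ,
      mul_mem (pow_mem (oddRat_sq_mem k hns) m) (pow_mem hs ℓ), ?_⟩
    have e1 : η ^ ℓ = η * (η ^ 2) ^ m := by
      rw [hm]
      ring
    rw [mul_pow, e1]
    ring

omit [Algebra (ZMod ℓ) k] [IsScalarTower (ZMod ℓ) k L] [DecidableEq L] hns in
/-- an element of `k(ξ)` is a quotient of values of coprime polynomials. -/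
lemma oddRat_exists_coprime_rep {x : L} (hx : x ∈ k⟮ξ⟯) :
    ∃ f g : k[X], IsCoprime f g ∧ aeval ξ g ≠ 0 ∧ aeval ξ f = aeval ξ g * x := by
  obtain ⟨r, s, hrs⟩ := (mem_adjoin_simple_iff k x).mp hx
  by_cases hs : aeval ξ s = 0
  · refine ⟨0, 1, isCoprime_zero_left.mpr isUnit_one, by simp, ?_⟩
    rw [hrs, hs, div_zero]
    simp
  · have hs0 : s ≠ 0 := by
      rintro rfl
      simp at hs
    set z : RatFunc k := algebraMap k[X] (RatFunc k) r / algebraMap k[X] (RatFunc k) s with hz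
    have hcross : z.num * s = r * z.denom := (RatFunc.num_mul_eq_mul_denom_iff hs0).mpr hz
    obtain ⟨e, he⟩ : z.denom ∣ s := RatFunc.denom_div_dvd r s
    have hg : aeval ξ z.denom ≠ 0 := by
      intro h0
      apply hs
      rw [he, map_mul, h0, zero_mul]
    refine ⟨z.num, z.denom, RatFunc.isCoprime_num_denom z, hg, ?_⟩
    have h1 := congrArg (aeval ξ) hcross
    rw [map_mul, map_mul] at h1
    rw [hrs]
    field_simp
    linear_combination h1

theorem exists_xRat_of_mem {Q : ((shortW A B)⁄L).Point} (hQ : Q ∈ oddRat k hns) :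
    ∃ f g : k[X], XRat ξ Q f g := by
  rcases Q with _ | ⟨x, y, h⟩
  · exact ⟨1, 0, xRat_zero ξ⟩
  · obtain ⟨hx, -⟩ := hQ
    obtain ⟨f, g, hfg, hg, hf⟩ := oddRat_exists_coprime_rep k hx
    refine ⟨f, g, hfg, aeval ξ g, hg, ?_, ?_⟩
    · rw [Point.xRep_some]
      simpa using hf
    · rw [Point.xRep_some]
      simp

theorem ht_gen (htr : Transcendental k ξ) : ht k ξ (Point.some ξ η hns) = 1 := by
  have h : XRat (k := k) ξ (Point.some ξ η hns) X 1 := by
    refine ⟨isCoprime_one_right, 1, one_ne_zero, ?_, ?_⟩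
    · rw [Point.xRep_some]; simp
    · rw [Point.xRep_some]; simp
  rw [ht_eq htr h]
  simp [hpair]

omit hns in
theorem ht_frob (htr : Transcendental k ξ) {Q : ((shortW A B)⁄L).Point}
    (hQ : ∃ f g : k[X], XRat ξ Q f g) :
    ht k ξ (frobPt (shortW A B) L Q) = ℓ * ht k ξ Q := by
  obtain ⟨f, g, hfg⟩ := hQ
  have hℓ0 : ℓ ≠ 0 := (Fact.out : ℓ.Prime).ne_zero
  have h' : XRat (k := k) ξ (frobPt (shortW A B) L Q) (f ^ ℓ) (g ^ ℓ) := by
    obtain ⟨hcop, c, hc, hf, hg⟩ := hfg
    refine ⟨hcop.pow, c ^ ℓ, pow_ne_zero ℓ hc, ?_, ?_⟩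
    · rw [map_pow, hf, mul_pow]
      congr 1
      rcases Q with _ | ⟨x, y, h⟩
      · rw [← Point.zero_def, map_zero, Point.xRep_zero]
        simp
      · obtain ⟨h', e⟩ := oddRat_frobPt_some (A := A) (B := B) h
        rw [e, Point.xRep_some, Point.xRep_some]
        simp
    · rw [map_pow, hg, mul_pow]
      congr 1
      rcases Q with _ | ⟨x, y, h⟩
      · rw [← Point.zero_def, map_zero, Point.xRep_zero]
        simp [hℓ0]
      · obtain ⟨h', e⟩ := oddRat_frobPt_some (A := A) (B := B) h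
        rw [e, Point.xRep_some, Point.xRep_some]
        simp
  rw [ht_eq htr h', ht_eq htr hfg, hpair, hpair, natDegree_pow, natDegree_pow,
    Nat.mul_max_mul_left]

/-- height `0` ⇒ constant x-coordinate ⇒ (parity: `deg (X³+AX+B)` is odd) `y = 0`. -/
theorem two_nsmul_eq_zero_of_ht_eq_zero (_hℓ : 5 ≤ ℓ) (htr : Transcendental k ξ)
    {Q : ((shortW A B)⁄L).Point} (hQ : Q ∈ oddRat k hns) (h0 : ht k ξ Q = 0) : 2 • Q = 0 := by
  rcases Q with _ | ⟨x, y, h⟩
  · rw [← Point.zero_def, smul_zero]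
  obtain ⟨hx, s, hs, rfl⟩ := hQ
  -- the x-coordinate is constant
  obtain ⟨f, g, hfg, hg, hf⟩ := oddRat_exists_coprime_rep k hx
  have hX : XRat (k := k) ξ (Point.some x (η * s) h) f g := by
    refine ⟨hfg, aeval ξ g, hg, ?_, ?_⟩
    · rw [Point.xRep_some]; simpa using hf
    · rw [Point.xRep_some]; simp
  rw [ht_eq htr hX, hpair] at h0
  have hf0 : f.natDegree = 0 := by omega
  have hg0 : g.natDegree = 0 := by omega
  obtain ⟨a, rfl⟩ : ∃ a, f = C a := ⟨_, eq_C_of_natDegree_eq_zero hf0⟩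
  obtain ⟨b, rfl⟩ : ∃ b, g = C b := ⟨_, eq_C_of_natDegree_eq_zero hg0⟩
  rw [aeval_C] at hg hf
  have hxe : x = algebraMap k L (a / b) := by
    rw [map_div₀]
    field_simp
    rw [hf, aeval_C]
    ring
  -- `s = 0`
  have hs0 : s = 0 := by
    by_contra hsne
    obtain ⟨p, q, hpq⟩ := (mem_adjoin_simple_iff k s).mp hs
    have hq : aeval ξ q ≠ 0 := by
      intro hq0
      apply hsne
      rw [hpq, hq0, div_zero]
    have hp : aeval ξ p ≠ 0 := by
      intro hp0
      apply hsne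
      rw [hpq, hp0, zero_div]
    have hp0 : p ≠ 0 := by rintro rfl; simp at hp
    have hq0 : q ≠ 0 := by rintro rfl; simp at hq
    have e1 := oddRat_equation h.1
    have e2 := oddRat_equation hns.1
    set A' : k := algebraMap (ZMod ℓ) k A with hA'
    set B' : k := algebraMap (ZMod ℓ) k B with hB'
    have hAL : algebraMap (ZMod ℓ) L A = algebraMap k L A' := by
      rw [hA', ← IsScalarTower.algebraMap_apply]
    have hBL : algebraMap (ZMod ℓ) L B = algebraMap k L B' := by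
      rw [hB', ← IsScalarTower.algebraMap_apply]
    set F : k[X] := X ^ 3 + C A' * X + C B' with hF
    set κ : k := (a / b) ^ 3 + A' * (a / b) + B' with hκ
    have hFdeg : F.natDegree = 3 := by
      rw [hF]
      compute_degree!
    have hF0 : F ≠ 0 := by
      intro h0
      rw [h0, natDegree_zero] at hFdeg
      omega
    have hFξ : aeval ξ F = η ^ 2 := by
      rw [e2, hF, hAL, hBL]
      simp
    have hκx : algebraMap k L κ = (η * s) ^ 2 := by
      rw [e1, hxe, hκ, hAL, hBL]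
      simp
    have hpoly : F * p ^ 2 = C κ * q ^ 2 := by
      apply (transcendental_iff_injective.mp htr)
      rw [map_mul, map_mul, map_pow, map_pow, hFξ, aeval_C, hκx, hpq]
      field_simp
    have hdeg := congrArg natDegree hpoly
    rw [natDegree_mul hF0 (pow_ne_zero 2 hp0), natDegree_pow, hFdeg] at hdeg
    by_cases hκ0 : κ = 0
    · rw [hκ0, map_zero, zero_mul] at hpoly
      exact mul_ne_zero hF0 (pow_ne_zero 2 hp0) hpoly
    · rw [natDegree_C_mul hκ0, natDegree_pow] at hdeg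
      omega
  -- conclusion
  rw [two_nsmul]
  apply Point.add_self_of_Y_eq
  rw [oddRat_negY, hs0]
  simp

end Fermat.Agent.F1
end MergeWrap_F1_OddRat

section MergeWrap_F1_Compose -- from F1/Compose.lean

/-!
# F1 / Compose: degree of a composition of rational functions (owner: helper10)
`f/g` in lowest terms of height `n`, `a/b` in lowest terms: `(f/g)∘(a/b) = hom2 n f a b / hom2 n g a b`
is in lowest terms and has height `n * h(a/b)`.
-/

set_option autoImplicit false

open Polynomial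

namespace Fermat.Agent.F1

variable {k : Type*} [Field k]

/-- Image of `hom2` under a ring homomorphism out of `k[X]`. -/
lemma compose_map_hom2 {S : Type*} [CommRing S] (φ : k[X] →+* S) (n : ℕ) (f a b : k[X]) :
    φ (hom2 n f a b)
      = ∑ i ∈ Finset.range (n + 1), φ (C (f.coeff i)) * φ a ^ i * φ b ^ (n - i) := by
  simp only [hom2, map_sum, map_mul, map_pow]

theorem hom2_eval (n : ℕ) (f a b : k[X]) (hn : f.natDegree ≤ n) {L : Type*} [Field L] [Algebra k L]
    (ξ : L) (hb : aeval ξ b ≠ 0) :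
    aeval ξ (hom2 n f a b) = (aeval ξ b) ^ n * aeval (aeval ξ a / aeval ξ b) f := by
  rw [aeval_eq_sum_range' (Nat.lt_succ_of_le hn), Finset.mul_sum]
  simp only [hom2, map_sum, map_mul, map_pow, aeval_C]
  refine Finset.sum_congr rfl fun i hi => ?_
  have hi' : i ≤ n := Nat.lt_succ_iff.mp (Finset.mem_range.mp hi)
  rw [Algebra.smul_def, div_pow]
  have : (aeval ξ b) ^ n = (aeval ξ b) ^ i * (aeval ξ b) ^ (n - i) := by
    rw [← pow_add, Nat.add_sub_cancel' hi']
  rw [this]
  field_simp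

/-- The top coefficient of `hom2`: if `a`, `b` have degree at most `m`, the coefficient of
`X ^ (n * m)` in `hom2 n f a b` is the binary form of `f` at the top coefficients of `a`, `b`. -/
lemma compose_coeff_hom2 (n m : ℕ) (f a b : k[X]) (ha : a.natDegree ≤ m) (hb : b.natDegree ≤ m) :
    (hom2 n f a b).coeff (n * m)
      = ∑ i ∈ Finset.range (n + 1), f.coeff i * a.coeff m ^ i * b.coeff m ^ (n - i) := by
  rw [hom2, finsetSum_coeff]
  refine Finset.sum_congr rfl fun i hi => ?_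
  have hi' : i ≤ n := Nat.lt_succ_iff.mp (Finset.mem_range.mp hi)
  have hdeg : n * m = i * m + (n - i) * m := by
    rw [← Nat.add_mul, Nat.add_sub_cancel' hi']
  have h1 : (a ^ i).natDegree ≤ i * m := natDegree_pow_le_of_le i ha
  have h2 : (b ^ (n - i)).natDegree ≤ (n - i) * m := natDegree_pow_le_of_le (n - i) hb
  rw [mul_assoc, coeff_C_mul, hdeg, coeff_mul_add_eq_of_natDegree_le h1 h2,
    coeff_pow_of_natDegree_le ha, coeff_pow_of_natDegree_le hb, mul_assoc]

lemma compose_natDegree_hom2_le (n m : ℕ) (f a b : k[X]) (ha : a.natDegree ≤ m)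
    (hb : b.natDegree ≤ m) : (hom2 n f a b).natDegree ≤ n * m := by
  rw [hom2]
  refine natDegree_sum_le_of_forall_le _ _ fun i hi => ?_
  have hi' : i ≤ n := Nat.lt_succ_iff.mp (Finset.mem_range.mp hi)
  have hdeg : n * m = 0 + i * m + (n - i) * m := by
    rw [zero_add, ← Nat.add_mul, Nat.add_sub_cancel' hi']
  rw [hdeg]
  exact natDegree_mul_le_of_le
    (natDegree_mul_le_of_le (natDegree_C _).le (natDegree_pow_le_of_le i ha))
    (natDegree_pow_le_of_le (n - i) hb)

/-- Binary forms attached to coprime polynomials have no common zero: the pair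
`(∑ fᵢ αⁱ βⁿ⁻ⁱ, ∑ gᵢ αⁱ βⁿ⁻ⁱ)`, `n = max (deg f) (deg g)`, vanishes only at `(α, β) = (0, 0)`.
Here `α, β` live in a field extension `L` of `k`. -/
lemma compose_no_common_zero (f g : k[X]) (hfg : IsCoprime f g) {L : Type*} [Field L]
    [Algebra k L] (α β : L)
    (hF : ∑ i ∈ Finset.range (hpair f g + 1),
      algebraMap k L (f.coeff i) * α ^ i * β ^ (hpair f g - i) = 0)
    (hG : ∑ i ∈ Finset.range (hpair f g + 1),
      algebraMap k L (g.coeff i) * α ^ i * β ^ (hpair f g - i) = 0) :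
    α = 0 ∧ β = 0 := by
  set n := hpair f g with hn
  have hfn : f.natDegree ≤ n := le_max_left _ _
  have hgn : g.natDegree ≤ n := le_max_right _ _
  have hinj : Function.Injective (algebraMap k L) := (algebraMap k L).injective
  by_cases hβ : β = 0
  · refine ⟨?_, hβ⟩
    -- only the term `i = n` survives
    have key : ∀ p : k[X], ∑ i ∈ Finset.range (n + 1),
        algebraMap k L (p.coeff i) * α ^ i * β ^ (n - i) = algebraMap k L (p.coeff n) * α ^ n := by
      intro p
      rw [Finset.sum_eq_single n]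
      · simp
      · intro i hi hin
        have hi' : i < n := lt_of_le_of_ne (Nat.lt_succ_iff.mp (Finset.mem_range.mp hi)) hin
        have : n - i ≠ 0 := by omega
        rw [hβ, zero_pow this, mul_zero]
      · intro h
        exact absurd (Finset.mem_range.mpr (Nat.lt_succ_self n)) h
    rw [key f] at hF
    rw [key g] at hG
    -- one of the top coefficients is nonzero
    have htop : f.coeff n ≠ 0 ∨ g.coeff n ≠ 0 := by
      by_contra hcon
      obtain ⟨hf0, hg0⟩ := not_or.mp hcon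
      rw [not_not] at hf0 hg0
      rcases le_total f.natDegree g.natDegree with h | h
      · have hn' : n = g.natDegree := by rw [hn, hpair, max_eq_right h]
        rw [hn', coeff_natDegree, leadingCoeff_eq_zero] at hg0
        have hf0' : f = 0 := by
          have : f.natDegree = 0 := by
            have := h; rw [hg0, natDegree_zero] at this; omega
          rw [hn', hg0, natDegree_zero] at hf0
          rw [eq_C_of_natDegree_eq_zero this, hf0, map_zero]
        rw [hf0', hg0] at hfg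
        exact not_isCoprime_zero_zero hfg
      · have hn' : n = f.natDegree := by rw [hn, hpair, max_eq_left h]
        rw [hn', coeff_natDegree, leadingCoeff_eq_zero] at hf0
        have hg0' : g = 0 := by
          have : g.natDegree = 0 := by
            have := h; rw [hf0, natDegree_zero] at this; omega
          rw [hn', hf0, natDegree_zero] at hg0
          rw [eq_C_of_natDegree_eq_zero this, hg0, map_zero]
        rw [hf0, hg0'] at hfg
        exact not_isCoprime_zero_zero hfg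
    have hαn : α ^ n = 0 := by
      rcases htop with h | h
      · have h' : algebraMap k L (f.coeff n) ≠ 0 := fun h0 => h (hinj (by rw [h0, map_zero]))
        exact (mul_eq_zero.mp hF).resolve_left h'
      · have h' : algebraMap k L (g.coeff n) ≠ 0 := fun h0 => h (hinj (by rw [h0, map_zero]))
        exact (mul_eq_zero.mp hG).resolve_left h'
    have hn0 : n ≠ 0 := by
      intro h0
      rw [h0, pow_zero] at hαn
      exact one_ne_zero hαn
    exact (pow_eq_zero_iff hn0).mp hαn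
  · exfalso
    -- evaluate at `t = α / β`
    have key : ∀ p : k[X], p.natDegree ≤ n → ∑ i ∈ Finset.range (n + 1),
        algebraMap k L (p.coeff i) * α ^ i * β ^ (n - i) = β ^ n * aeval (α / β) p := by
      intro p hp
      rw [aeval_eq_sum_range' (Nat.lt_succ_of_le hp), Finset.mul_sum]
      refine Finset.sum_congr rfl fun i hi => ?_
      have hi' : i ≤ n := Nat.lt_succ_iff.mp (Finset.mem_range.mp hi)
      rw [Algebra.smul_def, div_pow]
      have : β ^ n = β ^ i * β ^ (n - i) := by rw [← pow_add, Nat.add_sub_cancel' hi']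
      rw [this]
      field_simp
    rw [key f hfn] at hF
    rw [key g hgn] at hG
    have hβn : β ^ n ≠ 0 := pow_ne_zero n hβ
    have hf0 : aeval (α / β) f = 0 := (mul_eq_zero.mp hF).resolve_left hβn
    have hg0 : aeval (α / β) g = 0 := (mul_eq_zero.mp hG).resolve_left hβn
    obtain ⟨u, v, huv⟩ := hfg
    have := congrArg (aeval (α / β)) huv
    rw [map_add, map_mul, map_mul, hf0, hg0, mul_zero, mul_zero, add_zero, map_one] at this
    exact zero_ne_one this

theorem isCoprime_hom2 (f g a b : k[X]) (hfg : IsCoprime f g) (hab : IsCoprime a b) :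
    IsCoprime (hom2 (hpair f g) f a b) (hom2 (hpair f g) g a b) := by
  set n := hpair f g with hn
  rw [← Ideal.isCoprime_span_singleton_iff, Ideal.isCoprime_iff_sup_eq]
  by_contra htop
  obtain ⟨M, hM, hle⟩ := Ideal.exists_le_maximal _ htop
  let _ : Field (k[X] ⧸ M) := Ideal.Quotient.field M
  let q : k[X] →ₐ[k] (k[X] ⧸ M) := Ideal.Quotient.mkₐ k M
  have hFM : hom2 n f a b ∈ M :=
    hle (Ideal.mem_sup_left (Ideal.mem_span_singleton_self _))
  have hGM : hom2 n g a b ∈ M :=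
    hle (Ideal.mem_sup_right (Ideal.mem_span_singleton_self _))
  have hqF : q (hom2 n f a b) = 0 := Ideal.Quotient.eq_zero_iff_mem.mpr hFM
  have hqG : q (hom2 n g a b) = 0 := Ideal.Quotient.eq_zero_iff_mem.mpr hGM
  have hC : ∀ c : k, q (C c) = algebraMap k (k[X] ⧸ M) c := fun c => by
    rw [← algebraMap_eq, AlgHom.commutes]
  have hexp : ∀ p : k[X], q (hom2 n p a b) = ∑ i ∈ Finset.range (n + 1),
      algebraMap k (k[X] ⧸ M) (p.coeff i) * q a ^ i * q b ^ (n - i) := by
    intro p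
    simp only [hom2, map_sum, map_mul, map_pow, hC]
  rw [hexp f] at hqF
  rw [hexp g] at hqG
  obtain ⟨ha0, hb0⟩ := compose_no_common_zero f g hfg (q a) (q b) hqF hqG
  have haM : a ∈ M := Ideal.Quotient.eq_zero_iff_mem.mp ha0
  have hbM : b ∈ M := Ideal.Quotient.eq_zero_iff_mem.mp hb0
  obtain ⟨u, v, huv⟩ := hab
  have h1 : (1 : k[X]) ∈ M := by
    rw [← huv]
    exact M.add_mem (M.mul_mem_left u haM) (M.mul_mem_left v hbM)
  exact hM.ne_top ((Ideal.eq_top_iff_one M).mpr h1)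

theorem hpair_hom2 (f g a b : k[X]) (hfg : IsCoprime f g) (hab : IsCoprime a b) :
    hpair (hom2 (hpair f g) f a b) (hom2 (hpair f g) g a b) = hpair f g * hpair a b := by
  set n := hpair f g with hn
  set m := hpair a b with hm
  have ham : a.natDegree ≤ m := le_max_left _ _
  have hbm : b.natDegree ≤ m := le_max_right _ _
  refine le_antisymm (max_le (compose_natDegree_hom2_le n m f a b ham hbm)
    (compose_natDegree_hom2_le n m g a b ham hbm)) ?_
  -- the top coefficients of `a`, `b` are not both zero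
  have hAB : ¬ (a.coeff m = 0 ∧ b.coeff m = 0) := by
    rintro ⟨hA, hB⟩
    rcases le_total a.natDegree b.natDegree with h | h
    · have hm' : m = b.natDegree := by rw [hm, hpair, max_eq_right h]
      rw [hm', coeff_natDegree, leadingCoeff_eq_zero] at hB
      have ha0 : a = 0 := by
        have : a.natDegree = 0 := by
          have := h; rw [hB, natDegree_zero] at this; omega
        rw [hm', hB, natDegree_zero] at hA
        rw [eq_C_of_natDegree_eq_zero this, hA, map_zero]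
      rw [ha0, hB] at hab
      exact not_isCoprime_zero_zero hab
    · have hm' : m = a.natDegree := by rw [hm, hpair, max_eq_left h]
      rw [hm', coeff_natDegree, leadingCoeff_eq_zero] at hA
      have hb0 : b = 0 := by
        have : b.natDegree = 0 := by
          have := h; rw [hA, natDegree_zero] at this; omega
        rw [hm', hA, natDegree_zero] at hB
        rw [eq_C_of_natDegree_eq_zero this, hB, map_zero]
      rw [hA, hb0] at hab
      exact not_isCoprime_zero_zero hab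
  -- one of the two coefficients of `X ^ (n * m)` is nonzero
  have hcoeff : (hom2 n f a b).coeff (n * m) ≠ 0 ∨ (hom2 n g a b).coeff (n * m) ≠ 0 := by
    by_contra hcon
    obtain ⟨hF, hG⟩ := not_or.mp hcon
    rw [not_not] at hF hG
    rw [compose_coeff_hom2 n m f a b ham hbm] at hF
    rw [compose_coeff_hom2 n m g a b ham hbm] at hG
    exact hAB (compose_no_common_zero (L := k) f g hfg (a.coeff m) (b.coeff m)
      (by simpa using hF) (by simpa using hG))
  rcases hcoeff with h | h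
  · exact le_max_of_le_left (le_natDegree_of_ne_zero h)
  · exact le_max_of_le_right (le_natDegree_of_ne_zero h)

end Fermat.Agent.F1
end MergeWrap_F1_Compose

section MergeWrap_F1_Count -- from F1/Count.lean

/-!
# F1 / Count: Manin's count (owner: helper65)
The rational function `x(P - φP) = maninNum A B ℓ 1 / maninDen ℓ`, in lowest terms `p/q`, has height
`#E(F_ℓ) = ℓ + 1 - traceOfFrobenius`.

Pure polynomial argument over `ZMod ℓ`: with `f = X³ + A X + B` squarefree and `m = ℓ / 2`,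
`Num = f (f^m + 1)² - (X^ℓ + X)(X^ℓ - X)²` is monic of degree `2ℓ + 1`, `Den = ∏_c (X - c)²`, and
`X - c` cancels exactly `canc c` times, where `canc c = 1, 0, 2` according as `f(c)` is zero,
a nonzero square, a non-square; so `2 - canc c = #{y | y² = f(c)}`.
-/

set_option autoImplicit false

open Polynomial WeierstrassCurve

namespace Fermat.Agent.F1

namespace Manin

variable {ℓ : ℕ} [Fact ℓ.Prime]

/-- Numerator of the `x`-coordinate of `P - Frob(P)`, normalised. -/
noncomputable def mNum (A B : ZMod ℓ) : (ZMod ℓ)[X] :=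
  cubic A B * (cubic A B ^ (ℓ / 2) + 1) ^ 2 - (X ^ ℓ + X) * (X ^ ℓ - X) ^ 2

/-- The multiplicity with which `X - c` cancels. -/
noncomputable def canc (A B c : ZMod ℓ) : ℕ :=
  if (cubic A B).eval c = 0 then 1 else if IsSquare ((cubic A B).eval c) then 0 else 2

lemma canc_le_two (A B c : ZMod ℓ) : canc A B c ≤ 2 := by
  unfold canc; split_ifs <;> omega

@[simp] lemma eval_cubic (A B c : ZMod ℓ) : (cubic A B).eval c = c ^ 3 + A * c + B := by
  simp [cubic]

lemma eval_X_pow_sub_X (c : ZMod ℓ) : (X ^ ℓ - X : (ZMod ℓ)[X]).eval c = 0 := by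
  simp [ZMod.pow_card]

lemma X_sub_C_dvd_X_pow_sub_X (c : ZMod ℓ) : (X - C c) ∣ (X ^ ℓ - X : (ZMod ℓ)[X]) :=
  dvd_iff_isRoot.mpr (eval_X_pow_sub_X c)

lemma eval_mNum (A B c : ZMod ℓ) :
    (mNum A B).eval c = (cubic A B).eval c * (((cubic A B).eval c) ^ (ℓ / 2) + 1) ^ 2 := by
  have h := eval_X_pow_sub_X c
  simp only [mNum, eval_sub, eval_mul, eval_pow, eval_add, eval_one, eval_X] at h ⊢
  rw [h]; ring

lemma half_pos (_hℓ2 : ℓ ≠ 2) : 0 < ℓ / 2 := by
  have := (Fact.out : ℓ.Prime).two_le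
  omega

lemma two_mul_half_add_one (hℓ2 : ℓ ≠ 2) : 2 * (ℓ / 2) + 1 = ℓ := by
  have hodd := (Fact.out : ℓ.Prime).eq_two_or_odd.resolve_left hℓ2
  omega

lemma two_ne_zero' (hℓ2 : ℓ ≠ 2) : (2 : ZMod ℓ) ≠ 0 := by
  intro h
  have : ((2 : ℕ) : ZMod ℓ) = 0 := by exact_mod_cast h
  rw [ZMod.natCast_eq_zero_iff] at this
  have hp := (Fact.out : ℓ.Prime)
  have := (Nat.prime_dvd_prime_iff_eq hp Nat.prime_two).mp this
  exact hℓ2 this

/-- Euler's criterion, in the form we need. -/
lemma pow_half_eq (hℓ2 : ℓ ≠ 2) {a : ZMod ℓ} (ha : a ≠ 0) :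
    (IsSquare a ∧ a ^ (ℓ / 2) = 1) ∨ (¬ IsSquare a ∧ a ^ (ℓ / 2) = -1) := by
  have h1 := ZMod.euler_criterion (p := ℓ) ha
  rcases ZMod.pow_div_two_eq_neg_one_or_one ℓ ha with h | h
  · left; exact ⟨h1.mpr h, h⟩
  · right
    refine ⟨fun hs => ?_, h⟩
    have := h1.mp hs
    rw [h] at this
    have h2 : (2 : ZMod ℓ) = 0 := by linear_combination -this
    exact two_ne_zero' hℓ2 h2

/-- `(X - c)^{canc c}` divides the numerator. -/
lemma pow_canc_dvd_mNum (hℓ2 : ℓ ≠ 2) (A B c : ZMod ℓ) :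
    (X - C c) ^ canc A B c ∣ mNum A B := by
  unfold canc
  split_ifs with h0 hsq
  · rw [pow_one, dvd_iff_isRoot, IsRoot, eval_mNum, h0, zero_mul]
  · simp
  · have hm : (cubic A B).eval c ^ (ℓ / 2) = -1 := by
      rcases pow_half_eq hℓ2 h0 with ⟨hs, _⟩ | ⟨_, h⟩
      · exact absurd hs hsq
      · exact h
    have h1 : (X - C c) ∣ cubic A B ^ (ℓ / 2) + 1 := by
      rw [dvd_iff_isRoot, IsRoot, eval_add, eval_pow, eval_one, hm]; ring
    have h2 : (X - C c) ^ 2 ∣ (cubic A B ^ (ℓ / 2) + 1) ^ 2 := pow_dvd_pow_of_dvd h1 2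
    have h3 : (X - C c) ^ 2 ∣ (X ^ ℓ - X : (ZMod ℓ)[X]) ^ 2 :=
      pow_dvd_pow_of_dvd (X_sub_C_dvd_X_pow_sub_X c) 2
    exact dvd_sub (Dvd.dvd.mul_left h2 _) (Dvd.dvd.mul_left h3 _)

/-- The discriminant identity. -/
lemma disc_of_double_root {A B c : ZMod ℓ} (h1 : c ^ 3 + A * c + B = 0) (h2 : 3 * c ^ 2 + A = 0) :
    4 * A ^ 3 + 27 * B ^ 2 = 0 := by
  linear_combination (27 * B - 18 * A * c) * h1 + (-9 * B * c + 6 * A * c ^ 2 + 4 * A ^ 2) * h2

/-- The cubic is squarefree. -/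
lemma not_sq_dvd_cubic {A B : ZMod ℓ} (hdisc : 4 * A ^ 3 + 27 * B ^ 2 ≠ 0) (c : ZMod ℓ) :
    ¬ (X - C c) ^ 2 ∣ cubic A B := by
  rintro ⟨h, hh⟩
  have e1 : (cubic A B).eval c = 0 := by rw [hh]; simp
  have e2 : (derivative (cubic A B)).eval c = 0 := by
    rw [hh]; simp [derivative_mul, derivative_pow]
  have e2' : (derivative (cubic A B)).eval c = 3 * c ^ 2 + A := by
    simp [cubic, derivative_pow]
  rw [eval_cubic] at e1
  rw [e2'] at e2
  exact hdisc (disc_of_double_root e1 e2)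

/-- `(X - c)^{canc c + 1}` does not divide the numerator when `canc c < 2`. -/
lemma not_pow_canc_succ_dvd (hℓ2 : ℓ ≠ 2) {A B : ZMod ℓ} (hdisc : 4 * A ^ 3 + 27 * B ^ 2 ≠ 0)
    (c : ZMod ℓ) (hc : canc A B c < 2) : ¬ (X - C c) ^ (canc A B c + 1) ∣ mNum A B := by
  unfold canc at hc ⊢
  split_ifs at hc ⊢ with h0 hsq
  · -- simple zero of the cubic
    intro hdvd
    have h3 : (X - C c) ^ 2 ∣ (X ^ ℓ + X) * (X ^ ℓ - X : (ZMod ℓ)[X]) ^ 2 :=
      Dvd.dvd.mul_left (pow_dvd_pow_of_dvd (X_sub_C_dvd_X_pow_sub_X c) 2) _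
    have h4 : (X - C c) ^ 2 ∣ cubic A B * (cubic A B ^ (ℓ / 2) + 1) ^ 2 := by
      have := dvd_add hdvd h3
      simpa [mNum] using this
    have hcop : IsCoprime ((X - C c) ^ 2) ((cubic A B ^ (ℓ / 2) + 1) ^ 2) := by
      apply IsCoprime.pow
      rw [(irreducible_X_sub_C c).coprime_iff_not_dvd, dvd_iff_isRoot, IsRoot, eval_add, eval_pow,
        eval_one, h0, zero_pow (half_pos hℓ2).ne', zero_add]
      exact one_ne_zero
    exact not_sq_dvd_cubic hdisc c (hcop.dvd_of_dvd_mul_right h4)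
  · -- nonzero square
    rw [zero_add, pow_one, dvd_iff_isRoot, IsRoot, eval_mNum]
    have hm : (cubic A B).eval c ^ (ℓ / 2) = 1 := by
      rcases pow_half_eq hℓ2 h0 with ⟨_, h⟩ | ⟨hs, _⟩
      · exact h
      · exact absurd hsq hs
    rw [hm]
    have h2 := two_ne_zero' hℓ2
    have : ((1 : ZMod ℓ) + 1) ^ 2 ≠ 0 := by
      rw [one_add_one_eq_two]; exact pow_ne_zero 2 h2
    exact mul_ne_zero h0 this
  · omega

/-! ### The cancelling factor and the reduced denominator -/

/-- The common factor `∏ (X - c)^{canc c}`. -/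
noncomputable def gPoly (A B : ZMod ℓ) : (ZMod ℓ)[X] := ∏ c : ZMod ℓ, (X - C c) ^ canc A B c

/-- The reduced denominator `∏ (X - c)^{2 - canc c}`. -/
noncomputable def dPoly (A B : ZMod ℓ) : (ZMod ℓ)[X] := ∏ c : ZMod ℓ, (X - C c) ^ (2 - canc A B c)

lemma gPoly_dvd_mNum (hℓ2 : ℓ ≠ 2) (A B : ZMod ℓ) : gPoly A B ∣ mNum A B := by
  unfold gPoly
  apply Fintype.prod_dvd_of_coprime
  · intro c d hcd
    exact (isCoprime_X_sub_C_of_isUnit_sub (sub_ne_zero.mpr hcd).isUnit).pow
  · intro c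
    exact pow_canc_dvd_mNum hℓ2 A B c

lemma prod_X_sub_C_eq : ∏ c : ZMod ℓ, (X - C c) = (X ^ ℓ - X : (ZMod ℓ)[X]) := by
  have hp := (Fact.out : ℓ.Prime)
  have hroots : (X ^ ℓ - X : (ZMod ℓ)[X]).roots = Finset.univ.val := by
    have := FiniteField.roots_X_pow_card_sub_X (ZMod ℓ)
    rwa [ZMod.card] at this
  have hmonic : (X ^ ℓ - X : (ZMod ℓ)[X]).Monic := by
    apply monic_X_pow_sub
    rw [degree_X]
    exact_mod_cast hp.one_lt
  have hdeg : (X ^ ℓ - X : (ZMod ℓ)[X]).natDegree = ℓ :=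
    FiniteField.X_pow_card_sub_X_natDegree_eq (ZMod ℓ) hp.one_lt
  have hcard : Multiset.card (X ^ ℓ - X : (ZMod ℓ)[X]).roots
      = (X ^ ℓ - X : (ZMod ℓ)[X]).natDegree := by
    rw [hroots, hdeg]
    simp [ZMod.card]
  have h := prod_multiset_X_sub_C_of_monic_of_roots_card_eq hmonic hcard
  rw [hroots] at h
  exact h

lemma gPoly_mul_dPoly (A B : ZMod ℓ) : gPoly A B * dPoly A B = maninDen (ZMod ℓ) ℓ := by
  unfold gPoly dPoly maninDen
  rw [← Finset.prod_mul_distrib]
  have h : ∀ c : ZMod ℓ, (X - C c : (ZMod ℓ)[X]) ^ canc A B c * (X - C c) ^ (2 - canc A B c)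
      = (X - C c) ^ 2 := by
    intro c
    rw [← pow_add]
    congr 1
    have := canc_le_two A B c
    omega
  simp_rw [h]
  rw [Finset.prod_pow, prod_X_sub_C_eq]

lemma gPoly_monic (A B : ZMod ℓ) : (gPoly A B).Monic :=
  monic_prod_of_monic _ _ fun c _ => (monic_X_sub_C c).pow _

lemma dPoly_monic (A B : ZMod ℓ) : (dPoly A B).Monic :=
  monic_prod_of_monic _ _ fun c _ => (monic_X_sub_C c).pow _

lemma natDegree_gPoly (A B : ZMod ℓ) : (gPoly A B).natDegree = ∑ c : ZMod ℓ, canc A B c := by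
  unfold gPoly
  rw [natDegree_prod_of_monic _ _ fun c _ => (monic_X_sub_C c).pow _]
  refine Finset.sum_congr rfl fun c _ => ?_
  rw [(monic_X_sub_C c).natDegree_pow, natDegree_X_sub_C, mul_one]

lemma natDegree_dPoly (A B : ZMod ℓ) :
    (dPoly A B).natDegree = ∑ c : ZMod ℓ, (2 - canc A B c) := by
  unfold dPoly
  rw [natDegree_prod_of_monic _ _ fun c _ => (monic_X_sub_C c).pow _]
  refine Finset.sum_congr rfl fun c _ => ?_
  rw [(monic_X_sub_C c).natDegree_pow, natDegree_X_sub_C, mul_one]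

lemma sum_canc_add (A B : ZMod ℓ) :
    (∑ c : ZMod ℓ, canc A B c) + ∑ c : ZMod ℓ, (2 - canc A B c) = 2 * ℓ := by
  rw [← Finset.sum_add_distrib]
  have h : ∀ c : ZMod ℓ, canc A B c + (2 - canc A B c) = 2 := by
    intro c
    have := canc_le_two A B c
    omega
  simp_rw [h]
  simp [ZMod.card, mul_comm]

/-! ### Degree of the numerator -/

lemma cubic_pow_card (A B : ZMod ℓ) :
    cubic A B ^ ℓ = X ^ (3 * ℓ) + C A * X ^ ℓ + C B := by
  rw [← ZMod.expand_card]
  unfold cubic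
  simp only [map_add, map_mul, map_pow, expand_X, expand_C]
  rw [← pow_mul, mul_comm ℓ 3]

/-- lower-order part of the numerator -/
noncomputable def mRest (A B : ZMod ℓ) : (ZMod ℓ)[X] :=
  X ^ (ℓ + 2) + 2 * cubic A B ^ (ℓ / 2 + 1) + C A * X ^ ℓ + C A * X + 2 * C B

lemma mNum_eq (hℓ2 : ℓ ≠ 2) (A B : ZMod ℓ) : mNum A B = X ^ (2 * ℓ + 1) + mRest A B := by
  have h1 := cubic_pow_card A B
  have h2 : ∀ n : ℕ, n = 2 * (ℓ / 2) + 1 →
      cubic A B ^ n = cubic A B * (cubic A B ^ (ℓ / 2)) ^ 2 := by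
    rintro n rfl
    ring
  rw [h2 ℓ (two_mul_half_add_one hℓ2).symm] at h1
  unfold mNum mRest
  have h3 : cubic A B = X ^ 3 + C A * X + C B := rfl
  linear_combination h1 + (1 : (ZMod ℓ)[X]) * h3

omit [Fact ℓ.Prime] in
lemma natDegree_cubic_le (A B : ZMod ℓ) : (cubic A B).natDegree ≤ 3 := by
  unfold cubic
  compute_degree

lemma natDegree_mRest_le (hℓ2 : ℓ ≠ 2) (A B : ZMod ℓ) : (mRest A B).natDegree ≤ 2 * ℓ := by
  have hℓ := two_mul_half_add_one hℓ2
  have hm := half_pos hℓ2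
  have hc : (cubic A B ^ (ℓ / 2 + 1)).natDegree ≤ 2 * ℓ := by
    refine (natDegree_pow_le_of_le _ (natDegree_cubic_le A B)).trans ?_
    omega
  unfold mRest
  refine natDegree_add_le_of_degree_le (natDegree_add_le_of_degree_le
    (natDegree_add_le_of_degree_le (natDegree_add_le_of_degree_le ?_ ?_) ?_) ?_) ?_
  · rw [natDegree_X_pow]; omega
  · refine (natDegree_mul_le_of_le (m := 0) ?_ hc).trans (by omega)
    exact (natDegree_ofNat 2).le
  · refine (natDegree_C_mul_le _ _).trans ?_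
    rw [natDegree_X_pow]; omega
  · refine (natDegree_C_mul_le _ _).trans ?_
    rw [natDegree_X]; omega
  · refine (natDegree_mul_le_of_le (n := 0) (m := 0) ?_ ?_).trans (by omega)
    · exact (natDegree_ofNat 2).le
    · exact (natDegree_C B).le

lemma natDegree_mNum (hℓ2 : ℓ ≠ 2) (A B : ZMod ℓ) : (mNum A B).natDegree = 2 * ℓ + 1 := by
  rw [mNum_eq hℓ2, natDegree_add_eq_left_of_natDegree_lt, natDegree_X_pow]
  rw [natDegree_X_pow]
  exact Nat.lt_succ_of_le (natDegree_mRest_le hℓ2 A B)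

lemma mNum_ne_zero (hℓ2 : ℓ ≠ 2) (A B : ZMod ℓ) : mNum A B ≠ 0 := by
  intro h
  have := natDegree_mNum hℓ2 A B
  rw [h, natDegree_zero] at this
  omega

/-! ### The reduced fraction -/

lemma exists_reduced (hℓ2 : ℓ ≠ 2) {A B : ZMod ℓ} (hdisc : 4 * A ^ 3 + 27 * B ^ 2 ≠ 0) :
    ∃ p : (ZMod ℓ)[X], mNum A B = gPoly A B * p ∧ IsCoprime p (dPoly A B) ∧
      p.natDegree = 1 + ∑ c : ZMod ℓ, (2 - canc A B c) := by
  obtain ⟨p, hp⟩ := gPoly_dvd_mNum hℓ2 A B
  refine ⟨p, hp, ?_, ?_⟩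
  · unfold dPoly
    apply IsCoprime.prod_right
    intro c _
    by_cases hc : canc A B c < 2
    · apply IsCoprime.pow_right
      rw [isCoprime_comm, (irreducible_X_sub_C c).coprime_iff_not_dvd]
      intro hdvd
      apply not_pow_canc_succ_dvd hℓ2 hdisc c hc
      rw [hp, pow_succ]
      refine mul_dvd_mul ?_ hdvd
      unfold gPoly
      exact Finset.dvd_prod_of_mem (fun c => (X - C c) ^ canc A B c) (Finset.mem_univ c)
    · have : 2 - canc A B c = 0 := by omega
      rw [this, pow_zero]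
      exact isCoprime_one_right
  · have hne := mNum_ne_zero hℓ2 A B
    have hp0 : p ≠ 0 := by
      rintro rfl
      rw [mul_zero] at hp
      exact hne hp
    have hd := natDegree_mNum hℓ2 A B
    rw [hp, (gPoly_monic A B).natDegree_mul' hp0, natDegree_gPoly] at hd
    have := sum_canc_add A B
    omega

/-! ### Counting points -/

lemma ringChar_ne_two (hℓ2 : ℓ ≠ 2) : ringChar (ZMod ℓ) ≠ 2 := by
  rw [ZMod.ringChar_zmod_n]; exact hℓ2

open Classical in
lemma card_sqrt (hℓ2 : ℓ ≠ 2) (A B c : ZMod ℓ) :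
    Fintype.card {y : ZMod ℓ // y ^ 2 = c ^ 3 + A * c + B} = 2 - canc A B c := by
  have h := quadraticChar_card_sqrts (ringChar_ne_two hℓ2) (c ^ 3 + A * c + B)
  have hcard : Fintype.card {y : ZMod ℓ // y ^ 2 = c ^ 3 + A * c + B}
      = ({x : ZMod ℓ | x ^ 2 = c ^ 3 + A * c + B}.toFinset).card := by
    rw [Fintype.card_subtype]
    congr 1
    ext x
    simp
  rw [hcard]
  unfold canc
  rw [eval_cubic]
  split_ifs with h0 hsq
  · rw [quadraticChar_eq_zero_iff.mpr h0] at h
    omega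
  · rw [(quadraticChar_one_iff_isSquare h0).mpr hsq] at h
    omega
  · rw [quadraticChar_neg_one_iff_not_isSquare.mpr hsq] at h
    omega

lemma shortW_disc {A B : ZMod ℓ} (hΔ : (Fermat.Agent.S52.shortW A B).Δ ≠ 0) :
    4 * A ^ 3 + 27 * B ^ 2 ≠ 0 := by
  intro h
  apply hΔ
  simp only [Fermat.Agent.S52.shortW, WeierstrassCurve.Δ, WeierstrassCurve.b₂, WeierstrassCurve.b₄,
    WeierstrassCurve.b₆, WeierstrassCurve.b₈]
  linear_combination (-16 : ZMod ℓ) * h

open Classical in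
lemma card_points (hℓ2 : ℓ ≠ 2) {A B : ZMod ℓ} (hΔ : (Fermat.Agent.S52.shortW A B).Δ ≠ 0) :
    Nat.card (Fermat.Agent.S52.shortW A B).toAffine.Point
      = 1 + ∑ c : ZMod ℓ, (2 - canc A B c) := by
  rw [Nat.card_congr (Affine.nonsingularPointEquiv (Fermat.Agent.S52.shortW A B).toAffine)]
  have e1 : {xy : ZMod ℓ × ZMod ℓ //
      (Fermat.Agent.S52.shortW A B).toAffine.Nonsingular xy.1 xy.2}
      ≃ Σ c : ZMod ℓ, {y : ZMod ℓ // y ^ 2 = c ^ 3 + A * c + B} :=
    (Equiv.subtypeEquivRight (fun xy => by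
      rw [← Affine.equation_iff_nonsingular_of_Δ_ne_zero hΔ, Affine.equation_iff]
      simp [Fermat.Agent.S52.shortW])).trans
      (Equiv.subtypeProdEquivSigmaSubtype
        (fun (c y : ZMod ℓ) => y ^ 2 = c ^ 3 + A * c + B))
  change Nat.card (Option _) = _
  rw [Finite.card_option, Nat.card_congr e1, Nat.card_eq_fintype_card, Fintype.card_sigma,
    add_comm]
  congr 1
  exact Finset.sum_congr rfl fun c _ => card_sqrt hℓ2 A B c


/-- The normalised numerator is the numerator of `Defs`. -/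
lemma maninNum_one_eq (hℓ2 : ℓ ≠ 2) (A B : ZMod ℓ) : maninNum A B ℓ 1 = mNum A B := by
  have hhalf : (ℓ - 1) / 2 = ℓ / 2 := by
    have := two_mul_half_add_one hℓ2
    omega
  unfold maninNum mNum
  rw [hhalf, map_one]
  ring

end Manin

open Manin in
theorem manin_count (ℓ : ℕ) [Fact ℓ.Prime] (hℓ : 5 ≤ ℓ) (A B : ZMod ℓ)
    (hΔ : (Fermat.Agent.S52.shortW A B).Δ ≠ 0) :
    ∃ p q : (ZMod ℓ)[X], IsCoprime p q ∧ q ≠ 0 ∧
      p * maninDen (ZMod ℓ) ℓ = q * maninNum A B ℓ 1 ∧
      ((hpair p q : ℕ) : ℤ) = (ℓ : ℤ) + 1 - (Fermat.Agent.S52.shortW A B).traceOfFrobenius := by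
  have hℓ2 : ℓ ≠ 2 := by omega
  obtain ⟨p, hp, hcop, hdeg⟩ := exists_reduced hℓ2 (shortW_disc hΔ)
  refine ⟨p, dPoly A B, hcop, (dPoly_monic A B).ne_zero, ?_, ?_⟩
  · rw [maninNum_one_eq hℓ2, hp, ← gPoly_mul_dPoly]
    ring
  · have hcard := card_points hℓ2 hΔ
    have hmax : hpair p (dPoly A B) = 1 + ∑ c : ZMod ℓ, (2 - canc A B c) := by
      unfold hpair
      rw [hdeg, natDegree_dPoly]
      omega
    rw [hmax, ← hcard]
    simp only [WeierstrassCurve.traceOfFrobenius, WeierstrassCurve.card, Nat.card_zmod]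
    ring

end Fermat.Agent.F1
end MergeWrap_F1_Count

section MergeWrap_F1_SubFrob -- from F1/SubFrob.lean

/-!
# F1 / SubFrob: the chord formula for `Q - φ Q` and `Q + φ Q` (owner: helper88)

For an affine point `Q = (x, y)` of `y² = x³ + A x + B` over a field `L ⊇ F_ℓ` with `x^ℓ ≠ x`:
`x(Q ∓ φQ) · (x^ℓ - x)² = f(x) (1 ± f(x)^((ℓ-1)/2))² - (x + x^ℓ)(x^ℓ - x)²`
(`φ Q = (x^ℓ, y^ℓ)`, `y^ℓ = y f(x)^((ℓ-1)/2)`).
-/

set_option autoImplicit false

open Polynomial WeierstrassCurve WeierstrassCurve.Affine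

namespace Fermat.Agent.F1

open Fermat.Agent.S52 (shortW frobPt)

variable {ℓ : ℕ} [Fact ℓ.Prime] {A B : ZMod ℓ}
variable {L : Type*} [Field L] [Algebra (ZMod ℓ) L]

/-- the curve equation of the short Weierstrass curve over `L` -/
theorem sf_equation {x y : L} (h : ((shortW A B)⁄L).Nonsingular x y) :
    y ^ 2 = x ^ 3 + algebraMap (ZMod ℓ) L A * x + algebraMap (ZMod ℓ) L B := by
  have h1 := h.1
  rw [Affine.equation_iff] at h1
  simpa [shortW] using h1

theorem sf_aeval_cubic (x : L) :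
    aeval x (cubic A B) = x ^ 3 + algebraMap (ZMod ℓ) L A * x + algebraMap (ZMod ℓ) L B := by
  simp [cubic]

theorem sf_aeval_maninNum (x : L) (s : ZMod ℓ) :
    aeval x (maninNum A B ℓ s) =
      aeval x (cubic A B) * (1 + algebraMap (ZMod ℓ) L s * aeval x (cubic A B) ^ ((ℓ - 1) / 2)) ^ 2
        - (x + x ^ ℓ) * (x ^ ℓ - x) ^ 2 := by
  simp [maninNum]

theorem sf_aeval_maninDen (x : L) :
    aeval x (maninDen (ZMod ℓ) ℓ) = (x ^ ℓ - x) ^ 2 := by
  simp [maninDen]

omit [Algebra (ZMod ℓ) L] in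
theorem sf_pow_half (hℓ : 5 ≤ ℓ) (y : L) : y * (y ^ 2) ^ ((ℓ - 1) / 2) = y ^ ℓ := by
  have hodd : ℓ % 2 = 1 := by
    rcases (Fact.out : ℓ.Prime).eq_two_or_odd with h2 | h2
    · omega
    · exact h2
  have h2 : 2 * ((ℓ - 1) / 2) + 1 = ℓ := by omega
  rw [← pow_mul, ← pow_succ', h2]

variable [DecidableEq L]

/-- Frobenius on an affine point is the coordinatewise `ℓ`-th power. -/
theorem sf_frobPt_some {x y : L} (h : ((shortW A B)⁄L).Nonsingular x y) :
    ∃ h' : ((shortW A B)⁄L).Nonsingular (x ^ ℓ) (y ^ ℓ),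
      frobPt (shortW A B) L (Point.some x y h) = Point.some (x ^ ℓ) (y ^ ℓ) h' := by
  have key : ∀ (x' y' : L) (_ : x' = x ^ ℓ) (_ : y' = y ^ ℓ)
      (h' : ((shortW A B)⁄L).Nonsingular x' y'),
      ∃ h'' : ((shortW A B)⁄L).Nonsingular (x ^ ℓ) (y ^ ℓ),
        Point.some x' y' h' = Point.some (x ^ ℓ) (y ^ ℓ) h'' := by
    intro x' y' hx hy h'
    subst hx hy
    exact ⟨h', rfl⟩
  have hcard : Fintype.card (ZMod ℓ) = ℓ := ZMod.card ℓ
  refine key _ _ ?_ ?_ _
  · simp [hcard]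
  · simp [hcard]

set_option linter.unusedSectionVars false in
theorem sf_sub_eq {x y : L} (h : ((shortW A B)⁄L).Nonsingular x y)
    (h' : ((shortW A B)⁄L).Nonsingular (x ^ ℓ) (y ^ ℓ)) (hx : x ^ ℓ ≠ x) :
    Point.some x y h - Point.some (x ^ ℓ) (y ^ ℓ) h' =
      Point.some _ _ (Affine.nonsingular_add h ((Affine.nonsingular_neg ..).mpr h')
        fun hxy => hx hxy.left.symm) := by
  rw [sub_eq_add_neg, Point.neg_some, Point.add_of_X_ne (Ne.symm hx)]

theorem xRep_sub_frob (hℓ : 5 ≤ ℓ) {x y : L} (h : ((shortW A B)⁄L).Nonsingular x y)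
    (hx : x ^ ℓ ≠ x) :
    ∃ c : L, c ≠ 0 ∧
      aeval x (maninNum A B ℓ 1) =
        c * (Point.some x y h - frobPt (shortW A B) L (Point.some x y h)).xRep 0 ∧
      aeval x (maninDen (ZMod ℓ) ℓ) =
        c * (Point.some x y h - frobPt (shortW A B) L (Point.some x y h)).xRep 1 := by
  obtain ⟨h', hf⟩ := sf_frobPt_some h
  have hne : x ^ ℓ - x ≠ 0 := sub_ne_zero.mpr hx
  have hne' : x - x ^ ℓ ≠ 0 := sub_ne_zero.mpr (Ne.symm hx)
  have hsub := sf_sub_eq h h' hx
  rw [← hf] at hsub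
  refine ⟨(x ^ ℓ - x) ^ 2, pow_ne_zero _ hne, ?_, ?_⟩
  · rw [hsub, Point.xRep_some, sf_aeval_maninNum, sf_aeval_cubic, ← sf_equation h]
    simp only [Matrix.cons_val_zero]
    rw [Affine.addX, Affine.slope_of_X_ne (Ne.symm hx)]
    have hy := sf_pow_half hℓ y
    simp only [shortW, Affine.negY, WeierstrassCurve.baseChange, WeierstrassCurve.map_a₁,
      WeierstrassCurve.map_a₂, WeierstrassCurve.map_a₃, map_zero, map_one]
    field_simp
    rw [← hy]
    ring
  · rw [hsub, Point.xRep_some, sf_aeval_maninDen]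
    simp

theorem xRep_add_frob (hℓ : 5 ≤ ℓ) {x y : L} (h : ((shortW A B)⁄L).Nonsingular x y)
    (hx : x ^ ℓ ≠ x) :
    ∃ c : L, c ≠ 0 ∧
      aeval x (maninNum A B ℓ (-1)) =
        c * (Point.some x y h + frobPt (shortW A B) L (Point.some x y h)).xRep 0 ∧
      aeval x (maninDen (ZMod ℓ) ℓ) =
        c * (Point.some x y h + frobPt (shortW A B) L (Point.some x y h)).xRep 1 := by
  obtain ⟨h', hf⟩ := sf_frobPt_some h
  have hne : x ^ ℓ - x ≠ 0 := sub_ne_zero.mpr hx
  have hne' : x - x ^ ℓ ≠ 0 := sub_ne_zero.mpr (Ne.symm hx)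
  have hadd : Point.some x y h + frobPt (shortW A B) L (Point.some x y h) = _ :=
    hf ▸ Point.add_of_X_ne (h₁ := h) (h₂ := h') (Ne.symm hx)
  refine ⟨(x ^ ℓ - x) ^ 2, pow_ne_zero _ hne, ?_, ?_⟩
  · rw [hadd, Point.xRep_some, sf_aeval_maninNum, sf_aeval_cubic, ← sf_equation h]
    simp only [Matrix.cons_val_zero]
    rw [Affine.addX, Affine.slope_of_X_ne (Ne.symm hx)]
    have hy := sf_pow_half hℓ y
    simp only [shortW, WeierstrassCurve.baseChange, WeierstrassCurve.map_a₁,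
      WeierstrassCurve.map_a₂, map_zero, map_one, map_neg]
    field_simp
    rw [← hy]
    ring
  · rw [hadd, Point.xRep_some, sf_aeval_maninDen]
    simp

end Fermat.Agent.F1
end MergeWrap_F1_SubFrob

section MergeWrap_F1_Mult -- from F1/Mult.lean

/-!
# F1 / Mult: `ht (Q - φ Q) = #E(F_ℓ) · ht Q` on odd-rational points (owner: helper4)

For an affine point `Q = (x, y)` with `x^ℓ ≠ x` the chord formula gives
`x(Q - φQ) = maninNum(x) / maninDen(x)`; with the reduced Manin pair `(p, q)` (`Count.lean`) and a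
representative `x = a(ξ)/b(ξ)` this is `hom2 n p a b (ξ) / hom2 n q a b (ξ)` (`Compose.lean`).
-/

set_option autoImplicit false

open Polynomial WeierstrassCurve WeierstrassCurve.Affine IntermediateField

namespace Fermat.Agent.F1

open Fermat.Agent.S52 (shortW frobPt)

section Algebra

variable {k : Type*} [Field k]

/-- a coprime pair with `a^n b = a b^n` (`n ≥ 2`, `b ≠ 0`) consists of constants -/
theorem hpair_eq_zero_of_pow_mul {a b : k[X]} (hab : IsCoprime a b) (hb : b ≠ 0) {n : ℕ}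
    (hn : 2 ≤ n) (h : a ^ n * b = a * b ^ n) : hpair a b = 0 := by
  obtain ⟨m, rfl⟩ : ∃ m, n = m + 1 := ⟨n - 1, by omega⟩
  have hm : 1 ≤ m := by omega
  by_cases ha : a = 0
  · subst ha
    have hu : IsUnit b := isCoprime_zero_left.mp hab
    simp [hpair, natDegree_eq_zero_of_isUnit hu]
  · have h1 : a ^ m = b ^ m := by
      have h2 : a * b * a ^ m = a * b * b ^ m := by
        rw [pow_succ, pow_succ] at h
        linear_combination h
      exact mul_left_cancel₀ (mul_ne_zero ha hb) h2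
    have hua : IsUnit a := by
      have hc : IsCoprime a (b ^ m) := hab.pow_right
      have hd : a ∣ b ^ m := by
        rw [← h1]
        exact dvd_pow_self a (by omega)
      exact hc.isUnit_of_dvd' (dvd_refl a) hd
    have hub : IsUnit b := by
      have : IsUnit (b ^ m) := by
        rw [← h1]
        exact hua.pow m
      exact (isUnit_pow_iff (by omega)).mp this
    simp [hpair, natDegree_eq_zero_of_isUnit hua, natDegree_eq_zero_of_isUnit hub]

end Algebra

variable {ℓ : ℕ} [Fact ℓ.Prime] {A B : ZMod ℓ}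
variable (k : Type*) [Field k] [Algebra (ZMod ℓ) k]
variable {L : Type*} [Field L] [Algebra (ZMod ℓ) L] [Algebra k L] [IsScalarTower (ZMod ℓ) k L]
variable [DecidableEq L] {ξ η : L} (hns : ((shortW A B)⁄L).Nonsingular ξ η)

omit [DecidableEq L] in
/-- if the x-coordinate is fixed by Frobenius, the height is `0` -/
theorem ht_eq_zero_of_pow_eq (hℓ : 5 ≤ ℓ) (htr : Transcendental k ξ) {x y : L}
    (h : ((shortW A B)⁄L).Nonsingular x y) {a b : k[X]} (hQ : XRat ξ (Point.some x y h) a b)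
    (hx : x ^ ℓ = x) : ht k ξ (Point.some x y h) = 0 := by
  rw [ht_eq htr hQ]
  obtain ⟨hab, c, hc, ha, hb⟩ := hQ
  simp only [Point.xRep_some, Matrix.cons_val_zero, Matrix.cons_val_one, mul_one] at ha hb
  have hb0 : b ≠ 0 := by
    rintro rfl
    rw [map_zero] at hb
    exact hc hb.symm
  apply hpair_eq_zero_of_pow_mul hab hb0 (n := ℓ) (by omega)
  apply (transcendental_iff_injective.mp htr)
  simp only [map_mul, map_pow, ha, hb]
  rw [mul_pow, hx]
  ring

theorem ht_sub_frob (hℓ : 5 ≤ ℓ) (hΔ : (shortW A B).Δ ≠ 0) (htr : Transcendental k ξ)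
    {Q : ((shortW A B)⁄L).Point} (hQ : Q ∈ oddRat k hns) :
    (ht k ξ (Q - frobPt (shortW A B) L Q) : ℤ)
      = ((ℓ : ℤ) + 1 - (shortW A B).traceOfFrobenius) * ht k ξ Q := by
  haveI : (shortW A B).IsElliptic := ⟨isUnit_iff_ne_zero.mpr hΔ⟩
  have hW : ((shortW A B).map (algebraMap (ZMod ℓ) k)).map (algebraMap k L) = (shortW A B)⁄L := by
    rw [WeierstrassCurve.map_map, ← IsScalarTower.algebraMap_eq]
    rfl
  have hφQ := frob_mem_oddRat k hns hℓ hQ
  obtain ⟨a, b, hab⟩ := exists_xRat_of_mem k hns hQ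
  -- degenerate case, via the parallelogram law
  have hdeg : ht k ξ Q = 0 → (ht k ξ (Q - frobPt (shortW A B) L Q) : ℤ)
      = ((ℓ : ℤ) + 1 - (shortW A B).traceOfFrobenius) * ht k ξ Q := by
    intro h0
    have hp := ht_parallelogram ((shortW A B).map (algebraMap (ZMod ℓ) k)) hW htr Q
      (frobPt (shortW A B) L Q) ⟨a, b, hab⟩ (exists_xRat_of_mem k hns hφQ)
      (exists_xRat_of_mem k hns ((oddRat k hns).add_mem hQ hφQ))
      (exists_xRat_of_mem k hns ((oddRat k hns).sub_mem hQ hφQ))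
    rw [ht_frob k htr ⟨a, b, hab⟩, h0] at hp
    have : ht k ξ (Q - frobPt (shortW A B) L Q) = 0 := by omega
    rw [this, h0]
    simp
  match Q, hQ, hφQ, hab, hdeg with
  | .zero, _, _, _, hdeg => exact hdeg (ht_zero htr)
  | .some x y h, hQ, hφQ, hab, hdeg =>
    by_cases hx : x ^ ℓ = x
    · exact hdeg (ht_eq_zero_of_pow_eq k hℓ htr h hab hx)
    · obtain ⟨p, q, hpq, hq0, hid, hcount⟩ := manin_count ℓ hℓ A B hΔ
      obtain ⟨c₁, hc₁, hN, hD⟩ := xRep_sub_frob hℓ h hx
      set R := Point.some x y h - frobPt (shortW A B) L (Point.some x y h) with hR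
      -- the pair over `k`
      set pk := p.map (algebraMap (ZMod ℓ) k) with hpk
      set qk := q.map (algebraMap (ZMod ℓ) k) with hqk
      have hcop : IsCoprime pk qk := hpq.map (Polynomial.mapRingHom (algebraMap (ZMod ℓ) k))
      have hdp : pk.natDegree = p.natDegree :=
        natDegree_map_eq_of_injective (algebraMap (ZMod ℓ) k).injective p
      have hdq : qk.natDegree = q.natDegree :=
        natDegree_map_eq_of_injective (algebraMap (ZMod ℓ) k).injective q
      have hh : hpair pk qk = hpair p q := by simp only [hpair, hdp, hdq]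
      have hpx : aeval x pk = aeval x p := by
        rw [hpk, aeval_map_algebraMap]
      have hqx : aeval x qk = aeval x q := by
        rw [hqk, aeval_map_algebraMap]
      -- `[p(x) : q(x)]` is proportional to `R.xRep`
      have hid' : aeval x p * aeval x (maninDen (ZMod ℓ) ℓ) = aeval x q * aeval x (maninNum A B ℓ 1) := by
        rw [← map_mul, ← map_mul, hid]
      rw [hN, hD] at hid'
      have hcross : aeval x p * R.xRep 1 = aeval x q * R.xRep 0 := by
        apply mul_left_cancel₀ hc₁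
        linear_combination hid'
      have hne : ¬ (aeval x p = 0 ∧ aeval x q = 0) := by
        rintro ⟨h1, h2⟩
        obtain ⟨u, v, huv⟩ := hpq
        have := congrArg (aeval x) huv
        simp [h1, h2] at this
      have hprop : ∃ c₂ : L, c₂ ≠ 0 ∧ aeval x p = c₂ * R.xRep 0 ∧ aeval x q = c₂ * R.xRep 1 := by
        rcases hRR : R with _ | ⟨x₃, y₃, h₃⟩
        · rw [hRR] at hcross
          simp only [← Point.zero_def, Point.xRep_zero, Matrix.cons_val_zero, Matrix.cons_val_one,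
            mul_zero, mul_one] at hcross ⊢
          refine ⟨aeval x p, ?_, rfl, hcross.symm⟩
          intro h1
          exact hne ⟨h1, hcross.symm⟩
        · rw [hRR] at hcross
          simp only [Point.xRep_some, Matrix.cons_val_zero, Matrix.cons_val_one, mul_one]
            at hcross ⊢
          refine ⟨aeval x q, ?_, hcross, rfl⟩
          intro h2
          exact hne ⟨by rw [hcross, h2, zero_mul], h2⟩
      obtain ⟨c₂, hc₂, hp2, hq2⟩ := hprop
      -- representation of `x`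
      obtain ⟨hab1, c, hc, ha, hb⟩ := hab
      simp only [Point.xRep_some, Matrix.cons_val_zero, Matrix.cons_val_one, mul_one] at ha hb
      have hbξ : aeval ξ b ≠ 0 := by rw [hb]; exact hc
      have hxab : aeval ξ a / aeval ξ b = x := by
        rw [ha, hb]
        field_simp
      have hRrep : XRat ξ R (hom2 (hpair pk qk) pk a b) (hom2 (hpair pk qk) qk a b) := by
        refine ⟨isCoprime_hom2 pk qk a b hcop hab1, aeval ξ b ^ hpair pk qk * c₂,
          mul_ne_zero (pow_ne_zero _ hbξ) hc₂, ?_, ?_⟩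
        · rw [hom2_eval (hpair pk qk) pk a b (le_max_left _ _) ξ hbξ, hxab, hpx, hp2]
          ring
        · rw [hom2_eval (hpair pk qk) qk a b (le_max_right _ _) ξ hbξ, hxab, hqx, hq2]
          ring
      rw [ht_eq htr hRrep, ht_eq htr ⟨hab1, c, hc, by simpa using ha, by simpa using hb⟩,
        hpair_hom2 pk qk a b hcop hab1, hh, ← hcount]
      push_cast
      ring

end Fermat.Agent.F1
end MergeWrap_F1_Mult
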